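import Fermat.Agent.S51.TorsionAlg
import Fermat.Agent.S51_helper12.GaloisLine
import Fermat.Prelude.Def_FLTPrelim_ModularRep

set_option autoImplicit false

/-!
S51, Part A end statements (helper76): a reducible mod-3 (resp. mod-5) representation of
`W ⊗ ℚ` yields a rational root of `psi3` (resp. a Galois-stable pair `{x(P), x(2P)}` exchanged
by the duplication map), given the structural facts `TorsOK` on `E[p]` (nontrivial, finite,
fewer than `p^3` elements).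
-/

namespace Fermat.Agent.S51.Torsion

open WeierstrassCurve WeierstrassCurve.Affine WeierstrassCurve.Affine.Point
open Fermat.Agent.S51_helper12

noncomputable section

/-- what the torsion-structure part must supply about `E[p]` -/
def TorsOK (E : WeierstrassCurve ℚ) (p : ℕ) : Prop :=
  Nontrivial (Tors E p) ∧ Finite (Tors E p) ∧ Nat.card (Tors E p) < p ^ 3

section general

variable {E : WeierstrassCurve ℚ}

lemma xOf_eq_of_xCoord {P : (E⁄Qbar).Point} {x : Qbar} (h : XCoord P x) : xOf E P = x := by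
  obtain ⟨y, hn, rfl⟩ := h
  rfl

lemma xCoord_xOf {P : (E⁄Qbar).Point} (h : P ≠ 0) : XCoord P (xOf E P) := by
  obtain ⟨x, hx⟩ := exists_xCoord_of_ne_zero h
  rwa [xOf_eq_of_xCoord hx]

lemma nsmul_coe_tors {p : ℕ} (P : Tors E p) : p • (P : (E⁄Qbar).Point) = 0 := by
  have := P.2
  rw [Submodule.mem_torsionBy_iff] at this
  rwa [natCast_zsmul] at this

/-- a reducible `E[p]` contains a Galois-stable proper nonzero submodule -/
lemma exists_stable_of_not_irreducible {p : ℕ} (hnt : Nontrivial (Tors E p))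
    (h : ¬ GaloisRepIsIrreducible (K := Qbar) ℚ E p) :
    ∃ N : Submodule (ZMod p) (Tors E p), IsGaloisStable ℚ N ∧ N ≠ ⊥ ∧ N ≠ ⊤ := by
  unfold GaloisRepIsIrreducible at h
  rw [not_and] at h
  have := h hnt
  push Not at this
  exact this

end general

variable (W : WeierstrassCurve ℤ)

lemma bc_b₂ : (((W.map (Int.castRingHom ℚ))⁄Qbar)).b₂ = ((W.b₂ : ℤ) : Qbar) := by
  simp [WeierstrassCurve.baseChange, map_b₂]
lemma bc_b₄ : (((W.map (Int.castRingHom ℚ))⁄Qbar)).b₄ = ((W.b₄ : ℤ) : Qbar) := by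
  simp [WeierstrassCurve.baseChange, map_b₄]
lemma bc_b₆ : (((W.map (Int.castRingHom ℚ))⁄Qbar)).b₆ = ((W.b₆ : ℤ) : Qbar) := by
  simp [WeierstrassCurve.baseChange, map_b₆]
lemma bc_b₈ : (((W.map (Int.castRingHom ℚ))⁄Qbar)).b₈ = ((W.b₈ : ℤ) : Qbar) := by
  simp [WeierstrassCurve.baseChange, map_b₈]

theorem exists_rat_root_psi3_of_torsOK
    (hok : TorsOK (W.map (Int.castRingHom ℚ)) 3) (h : ¬ W.ModRepIsIrreducible 3) :
    ∃ x : ℚ, 3 * x ^ 4 + (W.b₂ : ℚ) * x ^ 3 + 3 * (W.b₄ : ℚ) * x ^ 2 + 3 * (W.b₆ : ℚ) * x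
      + (W.b₈ : ℚ) = 0 := by
  obtain ⟨hnt, hfin, hcard⟩ := hok
  obtain ⟨N, hstab, hbot, htop⟩ := exists_stable_of_not_irreducible hnt h
  obtain ⟨P, hPN, hP0, q, hq⟩ := exists_rational_x_three hcard N hstab hbot htop
  have hP0' := coe_ne_zero_tors hP0
  have hx := xCoord_xOf hP0'
  have h3 := hx.psi3_eq_zero (nsmul_coe_tors P)
  rw [← hq] at h3
  refine ⟨q, ?_⟩
  have key : algebraMap ℚ Qbar (3 * q ^ 4 + (W.b₂ : ℚ) * q ^ 3 + 3 * (W.b₄ : ℚ) * q ^ 2
      + 3 * (W.b₆ : ℚ) * q + (W.b₈ : ℚ)) = 0 := by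
    rw [← h3]
    simp only [psi3, bc_b₂, bc_b₄, bc_b₆, bc_b₈, map_add, map_mul, map_pow, map_intCast,
      map_ofNat]
  exact (map_eq_zero_iff _ (algebraMap ℚ Qbar).injective).mp key

theorem exists_rat_five_data_of_torsOK
    (hok : TorsOK (W.map (Int.castRingHom ℚ)) 5) (h : ¬ W.ModRepIsIrreducible 5) :
    ∃ (e₁ e₂ : ℚ) (α β : AlgebraicClosure ℚ),
      α + β = (e₁ : AlgebraicClosure ℚ) ∧ α * β = (e₂ : AlgebraicClosure ℚ) ∧ α ≠ β ∧
      α ^ 4 - (W.b₄ : AlgebraicClosure ℚ) * α ^ 2 - 2 * (W.b₆ : AlgebraicClosure ℚ) * α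
          - (W.b₈ : AlgebraicClosure ℚ)
        = β * (4 * α ^ 3 + (W.b₂ : AlgebraicClosure ℚ) * α ^ 2
          + 2 * (W.b₄ : AlgebraicClosure ℚ) * α + (W.b₆ : AlgebraicClosure ℚ)) ∧
      β ^ 4 - (W.b₄ : AlgebraicClosure ℚ) * β ^ 2 - 2 * (W.b₆ : AlgebraicClosure ℚ) * β
          - (W.b₈ : AlgebraicClosure ℚ)
        = α * (4 * β ^ 3 + (W.b₂ : AlgebraicClosure ℚ) * β ^ 2
          + 2 * (W.b₄ : AlgebraicClosure ℚ) * β + (W.b₆ : AlgebraicClosure ℚ)) := by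
  obtain ⟨hnt, hfin, hcard⟩ := hok
  obtain ⟨N, hstab, hbot, htop⟩ := exists_stable_of_not_irreducible hnt h
  obtain ⟨P, hPN, hP0, ⟨s, hs⟩, ⟨t, ht⟩⟩ := exists_rational_sym_five hcard N hstab hbot htop
  have hx := xCoord_xOf (coe_ne_zero_tors hP0)
  obtain ⟨β, hβ, hne, hd, hdβ, he, he'⟩ := hx.five_data (nsmul_coe_tors P)
  have hβ' : xOf (W.map (Int.castRingHom ℚ)) ((P + P : Tors _ 5) : (_⁄Qbar).Point) = β := by
    rw [Submodule.coe_add, ← two_nsmul]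
    exact xOf_eq_of_xCoord hβ
  rw [hβ'] at hs ht
  simp only [dupDen, dupNum, bc_b₂, bc_b₄, bc_b₆, bc_b₈] at he he'
  refine ⟨s, t, _, β, ?_, ?_, hne, he.symm, he'.symm⟩
  · rw [← hs]; exact (eq_ratCast _ _).symm
  · rw [← ht]; exact (eq_ratCast _ _).symm

end

end Fermat.Agent.S51.Torsion
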