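import Fermat.Agent.S51.Descent15.Descent

set_option autoImplicit false

namespace Fermat.Agent.S51

open Fermat.Agent.S51.Descent15

/-- The curve `y² = x (x - 1) (x - 81)` (Cremona 15a2) has only its 2-torsion as rational
points. -/
theorem rational_points_15a2 (x y : ℚ) (h : y ^ 2 = x * (x - 1) * (x - 81)) :
    y = 0 ∧ (x = 0 ∨ x = 1 ∨ x = 81) := by
  have hy : y = 0 := eq_zero_of_curve81 h
  refine ⟨hy, ?_⟩
  rw [hy] at h
  have h0 : x * (x - 1) * (x - 81) = 0 := by rw [← h]; ring
  rcases mul_eq_zero.mp h0 with h1 | h1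
  · rcases mul_eq_zero.mp h1 with h2 | h2
    · exact Or.inl h2
    · exact Or.inr (Or.inl (by linarith))
  · exact Or.inr (Or.inr (by linarith))

/-- The rational points of `Y² = X (X + 9) (X - 16)` (a short model of `X₀(15)`, Cremona 15a1):
only the torsion points `(0,0), (-9,0), (16,0), (36,±180), (-4,±20)`. -/
theorem rational_points_15a (X Y : ℚ) (h : Y ^ 2 = X * (X + 9) * (X - 16)) :
    X = 0 ∨ X = -9 ∨ X = 16 ∨ X = 36 ∨ X = -4 := by
  by_cases hX : X = 16
  · exact Or.inr (Or.inr (Or.inl hX))
  have hx : X - 16 ≠ 0 := sub_ne_zero.mpr hX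
  -- the 2-isogeny with kernel generated by `(16, 0)`
  have hiso : (Y * (400 - (X - 16) ^ 2) / (X - 16) ^ 2) ^ 2 =
      (X * (X + 9) / (X - 16)) * (X * (X + 9) / (X - 16) - 1) * (X * (X + 9) / (X - 16) - 81) := by
    rw [div_pow, mul_pow, h]
    field_simp
    ring
  have hy := eq_zero_of_curve81 hiso
  have hx2 : (X - 16) ^ 2 ≠ 0 := pow_ne_zero 2 hx
  rw [div_eq_zero_iff] at hy
  rcases hy with hy | hy
  · rcases mul_eq_zero.mp hy with hY | h400
    · rw [hY] at h
      have h0 : X * (X + 9) * (X - 16) = 0 := by rw [← h]; ring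
      rcases mul_eq_zero.mp h0 with h1 | h1
      · rcases mul_eq_zero.mp h1 with h2 | h2
        · exact Or.inl h2
        · exact Or.inr (Or.inl (by linarith))
      · exact absurd h1 hx
    · have h0 : (X - 36) * (X + 4) = 0 := by linear_combination (-1 : ℚ) * h400
      rcases mul_eq_zero.mp h0 with h1 | h1
      · exact Or.inr (Or.inr (Or.inr (Or.inl (by linarith))))
      · exact Or.inr (Or.inr (Or.inr (Or.inr (by linarith))))
  · exact absurd hy hx2

/-- The same statement with the `y`-coordinates. -/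
theorem rational_points_15a' (X Y : ℚ) (h : Y ^ 2 = X * (X + 9) * (X - 16)) :
    (X = 0 ∧ Y = 0) ∨ (X = -9 ∧ Y = 0) ∨ (X = 16 ∧ Y = 0) ∨ (X = 36 ∧ (Y = 180 ∨ Y = -180)) ∨
      (X = -4 ∧ (Y = 20 ∨ Y = -20)) := by
  rcases rational_points_15a X Y h with rfl | rfl | rfl | rfl | rfl
  · left; exact ⟨rfl, by norm_num at h; exact h⟩
  · right; left; exact ⟨rfl, by norm_num at h; exact h⟩
  · right; right; left; exact ⟨rfl, by norm_num at h; exact h⟩
  · right; right; right; left
    refine ⟨rfl, ?_⟩
    have h0 : (Y - 180) * (Y + 180) = 0 := by linear_combination h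
    rcases mul_eq_zero.mp h0 with h1 | h1
    · left; linarith
    · right; linarith
  · right; right; right; right
    refine ⟨rfl, ?_⟩
    have h0 : (Y - 20) * (Y + 20) = 0 := by linear_combination h
    rcases mul_eq_zero.mp h0 with h1 | h1
    · left; linarith
    · right; linarith

/-- The minimal model `y² + x y + y = x³ + x² - 10 x - 10` of `X₀(15)` (Cremona 15a1): its affine
rational points. -/
theorem rational_points_15a1_minimal (x y : ℚ)
    (h : y ^ 2 + x * y + y = x ^ 3 + x ^ 2 - 10 * x - 10) :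
    x = -1 ∨ x = -13 / 4 ∨ x = 3 ∨ x = 8 ∨ x = -2 := by
  have h' : (4 * (2 * y + x + 1)) ^ 2 = (4 * x + 4) * ((4 * x + 4) + 9) * ((4 * x + 4) - 16) := by
    linear_combination 64 * h
  rcases rational_points_15a _ _ h' with h1 | h1 | h1 | h1 | h1
  · left; linarith
  · right; left; linarith
  · right; right; left; linarith
  · right; right; right; left; linarith
  · right; right; right; right; linarith

end Fermat.Agent.S51
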