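import Mathlib.Tactic

set_option autoImplicit false

namespace Fermat.Agent.S51

/-- The plane model `F(m,z) = 0` of `X₀(15)` (with `A = m^2+1`) maps to
`Y^2 = X(X+9)(X-16)` via `X = 9(z^2-A)/A`; together with the list of rational points of the
latter, this pins down the `j`-invariant. Here `c4` and `Δ` are given through the Fricke
parametrisation of curves with a rational subgroup of order five. -/
theorem core_of_param
    (hC : ∀ X Y : ℚ, Y ^ 2 = X * (X + 9) * (X - 16) →
      X = 0 ∨ X = -9 ∨ X = 16 ∨ X = 36 ∨ X = -4)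
    (m lam z c4 Δ : ℚ)
    (hc4 : c4 = 16 * lam ^ 2 * (m ^ 2 + 1) * (m ^ 2 - 6 * m + 4))
    (hΔ : Δ = 64 * lam ^ 6 * (m ^ 2 + 1) ^ 3 * (2 * m - 11)) (hΔ0 : Δ ≠ 0)
    (hF : 3 * z ^ 4 + 4 * (m ^ 2 + 1) * z ^ 3 + 6 * (m ^ 2 + 1) * (2 * m - 1) * z ^ 2 +
      12 * (m ^ 2 + 1) ^ 2 * z + (m ^ 2 + 1) ^ 2 * (4 * m + 3) = 0) :
    32 * c4 ^ 3 = -121945 * Δ ∨ 32768 * c4 ^ 3 = 46969655 * Δ ∨ 2 * c4 ^ 3 = -25 * Δ ∨
      8 * c4 ^ 3 = -349938025 * Δ := by
  obtain ⟨A, hA⟩ : ∃ A : ℚ, A = m ^ 2 + 1 := ⟨_, rfl⟩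
  rw [← hA] at hc4 hΔ hF
  have hApos : 0 < A := by rw [hA]; positivity
  have hA0 : A ≠ 0 := hApos.ne'
  obtain ⟨B, hB⟩ : ∃ B : ℚ, B = 3 * z ^ 2 + A := ⟨_, rfl⟩
  have hB0 : B ≠ 0 := by rw [hB]; positivity
  have hm11 : 2 * m - 11 ≠ 0 := by
    intro h
    apply hΔ0
    rw [hΔ, h, mul_zero]
  have hm2 : m ^ 2 = A - 1 := by rw [hA]; ring
  have hXY : (9 * (z ^ 2 - A) * (4 * A * (z ^ 2 - A) * z + 3 * z ^ 2 * (z ^ 2 + 3 * A)) /
      (A ^ 2 * B)) ^ 2 = (9 * (z ^ 2 - A) / A) * ((9 * (z ^ 2 - A) / A) + 9) *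
        ((9 * (z ^ 2 - A) / A) - 16) := by
    field_simp
    subst hB
    linear_combination ((z ^ 2 - A) * z ^ 2 *
      (3 * z ^ 4 + 4 * A * z ^ 3 - 6 * A * z ^ 2 + 12 * A ^ 2 * z + 3 * A ^ 2 -
        4 * A * (3 * z ^ 2 + A) * m)) * hF +
      (-16 * z ^ 2 * A ^ 5 - 80 * z ^ 4 * A ^ 4 - 48 * z ^ 6 * A ^ 3 + 144 * z ^ 8 * A ^ 2) * hm2
  have key : ∀ c : ℚ, 9 * (z ^ 2 - A) / A = c → 9 * (z ^ 2 - A) = c * A := by
    intro c hc
    rw [← hc]
    field_simp
  rcases hC _ _ hXY with h | h | h | h | h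
  · -- X = 0 : impossible
    exfalso
    have hk := key _ h
    have hz : z ^ 2 = A := by linarith
    have h1 : 16 * A ^ 2 * (z + m) = 0 := by
      linear_combination hF - (3 * z ^ 2 + 4 * A * z + 12 * A * m - 3 * A) * hz
    have h2 : z + m = 0 := by
      rcases mul_eq_zero.mp h1 with h' | h'
      · exfalso
        have : A ^ 2 ≠ 0 := pow_ne_zero 2 hA0
        apply this
        linarith
      · exact h'
    have h3 : z ^ 2 = m ^ 2 := by
      have : z = -m := by linarith
      rw [this]; ring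
    linarith
  · -- X = -9 : z = 0, m = -3/4
    left
    have hk := key _ h
    have hz2 : z ^ 2 = 0 := by linarith
    have hz : z = 0 := pow_eq_zero_iff (two_ne_zero) |>.mp hz2
    rw [hz] at hF
    have h1 : A ^ 2 * (4 * m + 3) = 0 := by linear_combination hF
    have h2 : 4 * m + 3 = 0 := by
      rcases mul_eq_zero.mp h1 with h' | h'
      · exact absurd h' (pow_ne_zero 2 hA0)
      · exact h'
    have hm : m = -3 / 4 := by linarith
    subst hm
    subst hA
    rw [hc4, hΔ]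
    ring
  · -- X = 16 : m = 63/16
    right; left
    have hk := key _ h
    have hA' : A = 9 * z ^ 2 / 25 := by linarith
    have hz0 : z ≠ 0 := by
      intro hz
      rw [hz] at hA'
      apply hA0
      rw [hA']; ring
    have hF' := hF
    rw [hA'] at hF'
    have h2 : z ^ 4 * (39 * z + 63 * m + 16) = 0 := by linear_combination (625 / 48) * hF'
    have h3 : 39 * z + 63 * m + 16 = 0 := by
      rcases mul_eq_zero.mp h2 with h' | h'
      · exact absurd h' (pow_ne_zero 4 hz0)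
      · exact h'
    have h4 : (48 * m - 189) ^ 2 = 0 := by
      linear_combination (-38025 : ℚ) * hA - 1521 * hk + 9 * (39 * z - 63 * m - 16) * h3
    have hm : m = 63 / 16 := by
      have := pow_eq_zero_iff (two_ne_zero) |>.mp h4
      linarith
    subst hm
    subst hA
    rw [hc4, hΔ]
    ring
  · -- X = 36 : m = 1/2
    right; right; left
    have hk := key _ h
    have hz : z ^ 2 = 5 * A := by linarith
    have h1 : A ^ 2 * (32 * z + 64 * m + 48) = 0 := by
      linear_combination hF - (3 * z ^ 2 + 4 * A * z + 12 * A * m + 9 * A) * hz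
    have h2 : 32 * z + 64 * m + 48 = 0 := by
      rcases mul_eq_zero.mp h1 with h' | h'
      · exact absurd h' (pow_ne_zero 2 hA0)
      · exact h'
    have h2' : 2 * z + 4 * m + 3 = 0 := by linarith
    have h4 : (2 * m - 1) * (2 * m - 11) = 0 := by
      linear_combination (-4 : ℚ) * hz - 20 * hA - (4 * m + 3 - 2 * z) * h2'
    have hm : m = 1 / 2 := by
      rcases mul_eq_zero.mp h4 with h' | h'
      · linarith
      · exact absurd h' hm11
    subst hm
    subst hA
    rw [hc4, hΔ]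
    ring
  · -- X = -4 : m = -29/2
    right; right; right
    have hk := key _ h
    have hA' : A = 9 * z ^ 2 / 5 := by linarith
    have hz0 : z ≠ 0 := by
      intro hz
      rw [hz] at hA'
      apply hA0
      rw [hA']; ring
    have hF' := hF
    rw [hA'] at hF'
    have h2 : z ^ 4 * (24 * z + 18 * m + 1) = 0 := by linear_combination (25 / 48) * hF'
    have h3 : 24 * z + 18 * m + 1 = 0 := by
      rcases mul_eq_zero.mp h2 with h' | h'
      · exact absurd h' (pow_ne_zero 4 hz0)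
      · exact h'
    have h4 : (2 * m - 11) * (2 * m + 29) = 0 := by
      linear_combination (18 * m + 1 - 24 * z) * h3 + 64 * hk + 320 * hA
    have hm : m = -29 / 2 := by
      rcases mul_eq_zero.mp h4 with h' | h'
      · exact absurd h' hm11
      · linarith
    subst hm
    subst hA
    rw [hc4, hΔ]
    ring

end Fermat.Agent.S51
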