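import Mathlib.Tactic
import Mathlib.Algebra.Algebra.Rat

set_option autoImplicit false

namespace Fermat.Agent.S51

/-- From the data of a rational subgroup of order five (`α = x(P)`, `β = x(2P)` with rational
symmetric functions and the duplication relations), the translated `b`-invariants are given by
the Fricke parametrisation. -/
theorem param_of_five_data {K : Type*} [Field K] [CharZero K] (b2 b4 b6 b8 : ℚ)
    (hb : 4 * b8 = b2 * b6 - b4 ^ 2)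
    (e1 e2 : ℚ) (α β : K) (hsum : α + β = (e1 : K)) (hprod : α * β = (e2 : K))
    (hne : α ≠ β)
    (hα : α ^ 4 - (b4 : K) * α ^ 2 - 2 * (b6 : K) * α - (b8 : K) =
      β * (4 * α ^ 3 + (b2 : K) * α ^ 2 + 2 * (b4 : K) * α + (b6 : K)))
    (hβ : β ^ 4 - (b4 : K) * β ^ 2 - 2 * (b6 : K) * β - (b8 : K) =
      α * (4 * β ^ 3 + (b2 : K) * β ^ 2 + 2 * (b4 : K) * β + (b6 : K))) :
    ∃ r m lam : ℚ, lam ≠ 0 ∧
      b2 + 12 * r = 4 * lam * (m ^ 2 + 1) ∧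
      b4 + r * b2 + 6 * r ^ 2 = 2 * lam ^ 2 * (m ^ 2 + 1) * (2 * m - 1) ∧
      b6 + 2 * r * b4 + r ^ 2 * b2 + 4 * r ^ 3 = 4 * lam ^ 3 * (m ^ 2 + 1) ^ 2 ∧
      b8 + 3 * r * b6 + 3 * r ^ 2 * b4 + r ^ 3 * b2 + 3 * r ^ 4 =
        lam ^ 4 * (m ^ 2 + 1) ^ 2 * (4 * m + 3) := by
  -- translation
  obtain ⟨r, hr⟩ : ∃ r : ℚ, r = e1 / 2 := ⟨_, rfl⟩
  obtain ⟨a, ha⟩ : ∃ a : K, a = α - (r : K) := ⟨_, rfl⟩
  have he1 : (e1 : K) = 2 * (r : K) := by rw [hr]; push_cast; ring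
  have hαa : α = a + (r : K) := by rw [ha]; ring
  have hβa : β = (r : K) - a := by
    have : β = (e1 : K) - α := by rw [← hsum]; ring
    rw [this, he1, hαa]; ring
  have ha0 : a ≠ 0 := by
    intro h
    apply hne
    rw [hαa, hβa, h]; ring
  obtain ⟨δ, hδ⟩ : ∃ δ : ℚ, δ = (e1 ^ 2 - 4 * e2) / 4 := ⟨_, rfl⟩
  have hδa : a ^ 2 = (δ : K) := by
    have h1 : (δ : K) = ((e1 : K) ^ 2 - 4 * (e2 : K)) / 4 := by rw [hδ]; push_cast; ring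
    rw [h1, ← hsum, ← hprod, hαa, hβa]; ring
  have hδ0 : δ ≠ 0 := by
    intro h
    apply ha0
    rw [h, Rat.cast_zero] at hδa
    exact pow_eq_zero_iff (two_ne_zero) |>.mp hδa
  -- translated invariants
  obtain ⟨c2, hc2⟩ : ∃ c2 : ℚ, c2 = b2 + 12 * r := ⟨_, rfl⟩
  obtain ⟨c4, hc4⟩ : ∃ c4 : ℚ, c4 = b4 + r * b2 + 6 * r ^ 2 := ⟨_, rfl⟩
  obtain ⟨c6, hc6⟩ : ∃ c6 : ℚ, c6 = b6 + 2 * r * b4 + r ^ 2 * b2 + 4 * r ^ 3 := ⟨_, rfl⟩
  obtain ⟨c8, hc8⟩ : ∃ c8 : ℚ,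
      c8 = b8 + 3 * r * b6 + 3 * r ^ 2 * b4 + r ^ 3 * b2 + 3 * r ^ 4 := ⟨_, rfl⟩
  have hrel : 4 * c8 = c2 * c6 - c4 ^ 2 := by
    rw [hc2, hc4, hc6, hc8]; linear_combination hb
  have E1 : 5 * a ^ 4 + (c2 : K) * a ^ 3 + (c4 : K) * a ^ 2 - (c6 : K) * a - (c8 : K) = 0 := by
    rw [hαa, hβa] at hα
    rw [hc2, hc4, hc6, hc8]
    push_cast
    linear_combination hα
  have E2 : 5 * a ^ 4 - (c2 : K) * a ^ 3 + (c4 : K) * a ^ 2 + (c6 : K) * a - (c8 : K) = 0 := by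
    rw [hαa, hβa] at hβ
    rw [hc2, hc4, hc6, hc8]
    push_cast
    linear_combination hβ
  have h8K : ((c8 : ℚ) : K) = ((5 * δ ^ 2 + c4 * δ : ℚ) : K) := by
    push_cast
    rw [← hδa]
    linear_combination (-1 / 2 : K) * E1 - (1 / 2 : K) * E2
  have h8 : c8 = 5 * δ ^ 2 + c4 * δ := Rat.cast_injective h8K
  have h6K : ((c6 : ℚ) : K) = ((c2 * δ : ℚ) : K) := by
    push_cast
    rw [← hδa]
    have : 2 * a * ((c2 : K) * a ^ 2 - (c6 : K)) = 0 := by linear_combination E1 - E2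
    rcases mul_eq_zero.mp this with h | h
    · exfalso
      rcases mul_eq_zero.mp h with h' | h'
      · norm_num at h'
      · exact ha0 h'
    · linear_combination -h
  have h6 : c6 = c2 * δ := Rat.cast_injective h6K
  -- parametrisation
  obtain ⟨m, hm⟩ : ∃ m : ℚ, m = (c4 + 2 * δ) / (4 * δ) := ⟨_, rfl⟩
  have hA0 : m ^ 2 + 1 ≠ 0 := by positivity
  have hc4m : c4 = 2 * δ * (2 * m - 1) := by
    rw [hm]; field_simp; ring
  have hc2sq : c2 ^ 2 = 16 * δ * (m ^ 2 + 1) := by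
    have h1 : δ * c2 ^ 2 = δ * (16 * δ * (m ^ 2 + 1)) := by
      rw [h8, h6, hc4m] at hrel
      linear_combination -hrel
    exact mul_left_cancel₀ hδ0 h1
  obtain ⟨lam, hlam⟩ : ∃ lam : ℚ, lam = c2 / (4 * (m ^ 2 + 1)) := ⟨_, rfl⟩
  have hc2l : c2 = 4 * lam * (m ^ 2 + 1) := by
    rw [hlam]; field_simp
  have hδl : δ = lam ^ 2 * (m ^ 2 + 1) := by
    have h1 : 16 * (m ^ 2 + 1) * δ = 16 * (m ^ 2 + 1) * (lam ^ 2 * (m ^ 2 + 1)) := by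
      rw [hc2l] at hc2sq
      linear_combination -hc2sq
    exact mul_left_cancel₀ (mul_ne_zero (by norm_num) hA0) h1
  have hlam0 : lam ≠ 0 := by
    intro h
    apply hδ0
    rw [hδl, h]; ring
  refine ⟨r, m, lam, hlam0, ?_, ?_, ?_, ?_⟩
  · rw [← hc2]; exact hc2l
  · rw [← hc4, hc4m, hδl]; ring
  · rw [← hc6, h6, hc2l, hδl]; ring
  · rw [← hc8, h8, hc4m, hδl]; ring

end Fermat.Agent.S51
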