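import Fermat.Prelude.Def_FLTPrelim_Modularity
import Fermat.Agent.S51.PartBCore
import Fermat.Agent.S51.PartBParam

set_option autoImplicit false

namespace Fermat.Agent.S51

/-- Divisibility bookkeeping for the endgame: `5 ∣ c4` and `5 ∣ Δ`. -/
theorem five_dvd_both (a b' c4 Δ : ℤ) (ha : ¬ (5 : ℤ) ∣ a) (hb' : ¬ (5 : ℤ) ∣ b')
    (h : a * c4 ^ 3 = 5 * b' * Δ ∨ a * c4 ^ 3 = 25 * b' * Δ) :
    (5 : ℤ) ∣ c4 ∧ (5 : ℤ) ∣ Δ := by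
  have p5 : Prime (5 : ℤ) := by
    rw [Int.prime_iff_natAbs_prime]; norm_num
  have h5 : (5 : ℤ) ∣ a * c4 ^ 3 := by
    rcases h with h | h
    · exact ⟨b' * Δ, by rw [h]; ring⟩
    · exact ⟨5 * b' * Δ, by rw [h]; ring⟩
  have hc : (5 : ℤ) ∣ c4 := p5.dvd_of_dvd_pow ((p5.dvd_or_dvd h5).resolve_left ha)
  refine ⟨hc, ?_⟩
  obtain ⟨k, rfl⟩ := hc
  have h6 : (5 : ℤ) ∣ b' * Δ := by
    rcases h with h | h
    · refine ⟨5 * a * k ^ 3, ?_⟩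
      have : (5 : ℤ) * (b' * Δ) = 5 * (5 * (5 * a * k ^ 3)) := by linear_combination -h
      exact mul_left_cancel₀ (by norm_num) this
    · refine ⟨a * k ^ 3, ?_⟩
      have : (25 : ℤ) * (b' * Δ) = 25 * (5 * (a * k ^ 3)) := by linear_combination -h
      exact mul_left_cancel₀ (by norm_num) this
  exact (p5.dvd_or_dvd h6).resolve_left hb'

/-- Part D: none of the four exceptional `j`-invariants belongs to a semistable model. -/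
theorem false_of_j_relation (W : WeierstrassCurve ℤ) (hW : W.IsSemistableModel)
    (h : 32 * (W.c₄ : ℚ) ^ 3 = -121945 * (W.Δ : ℚ) ∨
      32768 * (W.c₄ : ℚ) ^ 3 = 46969655 * (W.Δ : ℚ) ∨
      2 * (W.c₄ : ℚ) ^ 3 = -25 * (W.Δ : ℚ) ∨
      8 * (W.c₄ : ℚ) ^ 3 = -349938025 * (W.Δ : ℚ)) : False := by
  have key : (5 : ℤ) ∣ W.c₄ ∧ (5 : ℤ) ∣ W.Δ := by
    rcases h with h | h | h | h
    · have hZ : 32 * W.c₄ ^ 3 = -121945 * W.Δ := by exact_mod_cast h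
      refine five_dvd_both 32 (-24389) _ _ (by norm_num) (by norm_num) (Or.inl ?_)
      linear_combination hZ
    · have hZ : 32768 * W.c₄ ^ 3 = 46969655 * W.Δ := by exact_mod_cast h
      refine five_dvd_both 32768 9393931 _ _ (by norm_num) (by norm_num) (Or.inl ?_)
      linear_combination hZ
    · have hZ : 2 * W.c₄ ^ 3 = -25 * W.Δ := by exact_mod_cast h
      refine five_dvd_both 2 (-1) _ _ (by norm_num) (by norm_num) (Or.inr ?_)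
      linear_combination hZ
    · have hZ : 8 * W.c₄ ^ 3 = -349938025 * W.Δ := by exact_mod_cast h
      refine five_dvd_both 8 (-13997521) _ _ (by norm_num) (by norm_num) (Or.inr ?_)
      linear_combination hZ
  exact hW 5 (by norm_num) (by exact_mod_cast key.2) (by exact_mod_cast key.1)

/-- Parts B and D: a semistable integral Weierstrass model cannot carry both a rational root
of its 3-division polynomial and the data of a rational subgroup of order five, given the list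
of rational points of `Y^2 = X(X+9)(X-16)`. -/
theorem false_of_three_five_data
    (hC : ∀ X Y : ℚ, Y ^ 2 = X * (X + 9) * (X - 16) →
      X = 0 ∨ X = -9 ∨ X = 16 ∨ X = 36 ∨ X = -4)
    (W : WeierstrassCurve ℤ) (hΔ : W.Δ ≠ 0) (hW : W.IsSemistableModel)
    (x3 : ℚ) (h3 : 3 * x3 ^ 4 + (W.b₂ : ℚ) * x3 ^ 3 + 3 * (W.b₄ : ℚ) * x3 ^ 2 +
      3 * (W.b₆ : ℚ) * x3 + (W.b₈ : ℚ) = 0)
    {K : Type*} [Field K] [Algebra ℚ K] (e₁ e₂ : ℚ) (α β : K)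
    (hsum : α + β = algebraMap ℚ K e₁) (hprod : α * β = algebraMap ℚ K e₂) (hne : α ≠ β)
    (hα : α ^ 4 - (W.b₄ : K) * α ^ 2 - 2 * (W.b₆ : K) * α - (W.b₈ : K) =
      β * (4 * α ^ 3 + (W.b₂ : K) * α ^ 2 + 2 * (W.b₄ : K) * α + (W.b₆ : K)))
    (hβ : β ^ 4 - (W.b₄ : K) * β ^ 2 - 2 * (W.b₆ : K) * β - (W.b₈ : K) =
      α * (4 * β ^ 3 + (W.b₂ : K) * β ^ 2 + 2 * (W.b₄ : K) * β + (W.b₆ : K))) : False := by
  have : CharZero K := algebraRat.charZero K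
  obtain ⟨b2, hb2⟩ : ∃ b2 : ℚ, b2 = (W.b₂ : ℚ) := ⟨_, rfl⟩
  obtain ⟨b4, hb4⟩ : ∃ b4 : ℚ, b4 = (W.b₄ : ℚ) := ⟨_, rfl⟩
  obtain ⟨b6, hb6⟩ : ∃ b6 : ℚ, b6 = (W.b₆ : ℚ) := ⟨_, rfl⟩
  obtain ⟨b8, hb8⟩ : ∃ b8 : ℚ, b8 = (W.b₈ : ℚ) := ⟨_, rfl⟩
  have hb : 4 * b8 = b2 * b6 - b4 ^ 2 := by
    rw [hb2, hb4, hb6, hb8]
    exact_mod_cast W.b_relation
  have hc4 : (W.c₄ : ℚ) = b2 ^ 2 - 24 * b4 := by
    rw [hb2, hb4, WeierstrassCurve.c₄]; push_cast; ring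
  have hΔ' : (W.Δ : ℚ) = -b2 ^ 2 * b8 - 8 * b4 ^ 3 - 27 * b6 ^ 2 + 9 * b2 * b4 * b6 := by
    rw [hb2, hb4, hb6, hb8, WeierstrassCurve.Δ]; push_cast; ring
  have hK2 : ((b2 : ℚ) : K) = (W.b₂ : K) := by rw [hb2, Rat.cast_intCast]
  have hK4 : ((b4 : ℚ) : K) = (W.b₄ : K) := by rw [hb4, Rat.cast_intCast]
  have hK6 : ((b6 : ℚ) : K) = (W.b₆ : K) := by rw [hb6, Rat.cast_intCast]
  have hK8 : ((b8 : ℚ) : K) = (W.b₈ : K) := by rw [hb8, Rat.cast_intCast]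
  rw [← hb2, ← hb4, ← hb6, ← hb8] at h3
  rw [← hK2, ← hK4, ← hK6, ← hK8] at hα hβ
  rw [eq_ratCast] at hsum hprod
  obtain ⟨r, m, lam, hlam0, h2, h4, h6, h8⟩ :=
    param_of_five_data b2 b4 b6 b8 hb e₁ e₂ α β hsum hprod hne hα hβ
  have e2 : b2 = 4 * lam * (m ^ 2 + 1) - 12 * r := by linarith
  have e4 : b4 = 2 * lam ^ 2 * (m ^ 2 + 1) * (2 * m - 1) - r * b2 - 6 * r ^ 2 := by linarith
  have e6 : b6 = 4 * lam ^ 3 * (m ^ 2 + 1) ^ 2 - 2 * r * b4 - r ^ 2 * b2 - 4 * r ^ 3 := by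
    linarith
  have e8 : b8 = lam ^ 4 * (m ^ 2 + 1) ^ 2 * (4 * m + 3) - 3 * r * b6 - 3 * r ^ 2 * b4 -
      r ^ 3 * b2 - 3 * r ^ 4 := by linarith
  have hc4' : (W.c₄ : ℚ) = 16 * lam ^ 2 * (m ^ 2 + 1) * (m ^ 2 - 6 * m + 4) := by
    rw [hc4, e4, e2]; ring
  have hΔ'' : (W.Δ : ℚ) = 64 * lam ^ 6 * (m ^ 2 + 1) ^ 3 * (2 * m - 11) := by
    rw [hΔ', e8, e6, e4, e2]; ring
  have hΔ0 : (W.Δ : ℚ) ≠ 0 := by exact_mod_cast hΔ
  obtain ⟨z, hz⟩ : ∃ z : ℚ, z = (x3 - r) / lam := ⟨_, rfl⟩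
  have hx3 : x3 = lam * z + r := by rw [hz]; field_simp; ring
  have hF : 3 * z ^ 4 + 4 * (m ^ 2 + 1) * z ^ 3 + 6 * (m ^ 2 + 1) * (2 * m - 1) * z ^ 2 +
      12 * (m ^ 2 + 1) ^ 2 * z + (m ^ 2 + 1) ^ 2 * (4 * m + 3) = 0 := by
    have h1 : lam ^ 4 * (3 * z ^ 4 + 4 * (m ^ 2 + 1) * z ^ 3 +
        6 * (m ^ 2 + 1) * (2 * m - 1) * z ^ 2 +
        12 * (m ^ 2 + 1) ^ 2 * z + (m ^ 2 + 1) ^ 2 * (4 * m + 3)) = 0 := by
      rw [hx3, e8, e6, e4, e2] at h3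
      linear_combination h3
    rcases mul_eq_zero.mp h1 with h' | h'
    · exact absurd h' (pow_ne_zero 4 hlam0)
    · exact h'
  exact false_of_j_relation W hW
    (core_of_param hC m lam z (W.c₄ : ℚ) (W.Δ : ℚ) hc4' hΔ'' hΔ0 hF)

end Fermat.Agent.S51
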