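import Fermat.Agent.S51.Glue
import Fermat.Agent.S51.TorsEnd
import Fermat.Agent.S51.PartB
import Fermat.Agent.S51_helper44.TorsFacts

set_option autoImplicit false

/-!
S51 assembly (helper51): everything except Part C (rational points of `Y^2 = X(X+9)(X-16)`),
which enters as the hypothesis `hC`.
-/

namespace Fermat.Agent.S51

open WeierstrassCurve

theorem map_Δ_ne_zero {W : WeierstrassCurve ℤ} (hΔ : W.Δ ≠ 0) :
    (W.map (Int.castRingHom ℚ)).Δ ≠ 0 := by
  rw [WeierstrassCurve.map_Δ]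
  simpa using hΔ

theorem ifaceThree : IfaceThree := fun W hΔ h =>
  Torsion.exists_rat_root_psi3_of_torsOK (W := W)
    (Fermat.Agent.S51_helper44.tors_facts_three _ (map_Δ_ne_zero hΔ)) h

theorem ifaceFive : IfaceFive := fun W hΔ h =>
  Torsion.exists_rat_five_data_of_torsOK (W := W)
    (Fermat.Agent.S51_helper44.tors_facts_five _ (map_Δ_ne_zero hΔ)) h

theorem ifaceB_of_C
    (hC : ∀ X Y : ℚ, Y ^ 2 = X * (X + 9) * (X - 16) →
      X = 0 ∨ X = -9 ∨ X = 16 ∨ X = 36 ∨ X = -4) : IfaceB := by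
  intro W hΔ hW x₃ hx₃ K _ _ e₁ e₂ α β hs hp hne hα hβ
  let _inst : Algebra ℚ K := DivisionRing.toRatAlgebra
  exact false_of_three_five_data hC W hΔ hW x₃ hx₃ e₁ e₂ α β
    (by rw [hs]; exact (eq_ratCast (algebraMap ℚ K) e₁).symm)
    (by rw [hp]; exact (eq_ratCast (algebraMap ℚ K) e₂).symm) hne hα hβ

theorem result_of_C
    (hC : ∀ X Y : ℚ, Y ^ 2 = X * (X + 9) * (X - 16) →
      X = 0 ∨ X = -9 ∨ X = 16 ∨ X = 36 ∨ X = -4)
    (W : WeierstrassCurve ℤ) (hΔ : W.Δ ≠ 0) (hW : W.IsSemistableModel) :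
    W.ModRepIsIrreducible 3 ∨ W.ModRepIsIrreducible 5 :=
  result_of_ifaces ifaceThree ifaceFive (ifaceB_of_C hC) W hΔ hW

end Fermat.Agent.S51
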