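import Mathlib

namespace Fermat.Agent.S51.DescentE3

/-! Rational points on `y^2 = x (x - 1) (x - 81)` and on `Y^2 = X (X + 9) (X - 16)`,
by a complete two-descent followed by an infinite descent on the numerator. -/

/-- `x` is the abscissa of a rational point with `y ≠ 0`. -/
def InS (x : ℚ) : Prop := ∃ y : ℚ, y ≠ 0 ∧ y ^ 2 = x * (x - 1) * (x - 81)

/-- all three of `x`, `x - 1`, `x - 81` are nonzero rational squares. -/
def InS1 (x : ℚ) : Prop :=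
  ∃ u v w : ℚ, u ≠ 0 ∧ v ≠ 0 ∧ w ≠ 0 ∧ x = u ^ 2 ∧ x - 1 = v ^ 2 ∧ x - 81 = w ^ 2

section IntLemmas

lemma nine_cancel {m X : ℤ} (h : m ^ 2 = 9 * X) : ∃ m' : ℤ, m = 3 * m' ∧ m' ^ 2 = X := by
  have h3 : (3 : ℤ) ∣ m := by
    have : (3 : ℤ) ∣ m ^ 2 := ⟨3 * X, by rw [h]; ring⟩
    exact Int.prime_three.dvd_of_dvd_pow this
  obtain ⟨m', rfl⟩ := h3
  refine ⟨m', rfl, ?_⟩
  have : 9 * m' ^ 2 = 9 * X := by rw [← h]; ring
  linarith

lemma three_dvd_of_sq {n e m A B : ℤ} (he : ¬ (3 : ℤ) ∣ e)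
    (h : m ^ 2 = n * (3 * A - e ^ 2) * (n - 3 * B)) : (3 : ℤ) ∣ n := by
  by_contra hn
  have key : ∀ n e m A B : ZMod 3, e ≠ 0 → n ≠ 0 →
      m ^ 2 = n * (3 * A - e ^ 2) * (n - 3 * B) → False := by decide
  have hc := congrArg (Int.cast : ℤ → ZMod 3) h
  push_cast at hc
  refine key n e m A B ?_ ?_ hc
  · rwa [Ne, ZMod.intCast_zmod_eq_zero_iff_dvd]
  · rwa [Ne, ZMod.intCast_zmod_eq_zero_iff_dvd]

lemma sq_mod8_of_odd {a : ℤ} (h : ¬ (2 : ℤ) ∣ a) : a ^ 2 % 8 = 1 := by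
  have : a % 8 = 1 ∨ a % 8 = 3 ∨ a % 8 = 5 ∨ a % 8 = 7 := by omega
  rcases this with h | h | h | h <;> simp [pow_two, Int.mul_emod, h]

lemma sq_mod4_of_even {z : ℤ} (h : (2 : ℤ) ∣ z) : z ^ 2 % 4 = 0 := by
  obtain ⟨k, rfl⟩ := h
  have : (2 * k) ^ 2 = 4 * (k * k) := by ring
  omega

lemma odd_mul_sq_mod4 {t β : ℤ} : (t * β ^ 2) % 4 = 0 ∨ (t * β ^ 2) % 4 = t % 4 := by
  by_cases hβ : (2 : ℤ) ∣ β
  · left
    rw [Int.mul_emod, sq_mod4_of_even hβ]; simp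
  · right
    have h8 := sq_mod8_of_odd hβ
    rw [Int.mul_emod, show β ^ 2 % 4 = 1 by omega]; simp

lemma lemmaE {a e b c t : ℤ} (hae : ¬ ((2 : ℤ) ∣ a ∧ (2 : ℤ) ∣ e)) (ht : ¬ (2 : ℤ) ∣ t)
    (h1 : a ^ 2 - e ^ 2 = 2 * (t * b ^ 2)) (h2 : a ^ 2 - 81 * e ^ 2 = 2 * (t * c ^ 2)) :
    False := by
  have ha : ¬ (2 : ℤ) ∣ a := by
    intro h
    have he : ¬ (2 : ℤ) ∣ e := fun h' => hae ⟨h, h'⟩
    have := sq_mod4_of_even h
    have := sq_mod8_of_odd he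
    omega
  have he : ¬ (2 : ℤ) ∣ e := by
    intro h
    have := sq_mod4_of_even h
    have := sq_mod8_of_odd ha
    omega
  have hA := sq_mod8_of_odd ha
  have hE := sq_mod8_of_odd he
  have hb : (2 : ℤ) ∣ b := by
    by_contra hb
    have hB := sq_mod8_of_odd hb
    have h3 : (t * b ^ 2) % 4 = t % 4 := by
      rw [Int.mul_emod, show b ^ 2 % 4 = 1 by omega]; simp
    omega
  have hc : (2 : ℤ) ∣ c := by
    by_contra hc
    have hC := sq_mod8_of_odd hc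
    have h3 : (t * c ^ 2) % 4 = t % 4 := by
      rw [Int.mul_emod, show c ^ 2 % 4 = 1 by omega]; simp
    omega
  obtain ⟨β, rfl⟩ := hb
  obtain ⟨γ, rfl⟩ := hc
  have h3 : 10 * e ^ 2 = t * β ^ 2 - t * γ ^ 2 := by
    have : 80 * e ^ 2 = 8 * (t * β ^ 2 - t * γ ^ 2) := by
      have e1 : 80 * e ^ 2 = (a ^ 2 - e ^ 2) - (a ^ 2 - 81 * e ^ 2) := by ring
      rw [e1, h1, h2]; ring
    linarith
  rcases odd_mul_sq_mod4 (t := t) (β := β) with h4 | h4 <;>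
  rcases odd_mul_sq_mod4 (t := t) (β := γ) with h5 | h5 <;> omega

lemma coprime_core {N e m k l : ℤ} (hcop : IsCoprime N e) (hl : IsCoprime N l)
    (h : m ^ 2 = N * (k * N - e ^ 2) * (N - l * e ^ 2)) : ∃ a : ℤ, N = a ^ 2 ∨ N = -a ^ 2 := by
  have h1 : IsCoprime N (k * N - e ^ 2) := by
    have h0 : IsCoprime N (-(e ^ 2)) := (hcop.pow_right).neg_right
    have e1 : k * N - e ^ 2 = -(e ^ 2) + N * k := by ring
    rw [e1]; exact h0.add_mul_left_right k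
  have h2 : IsCoprime N (N - l * e ^ 2) := by
    have h0 : IsCoprime N (-(l * e ^ 2)) := (hl.mul_right hcop.pow_right).neg_right
    have e1 : N - l * e ^ 2 = -(l * e ^ 2) + N * 1 := by ring
    rw [e1]; exact h0.add_mul_left_right 1
  exact Int.sq_of_isCoprime (h1.mul_right h2) (by rw [h]; ring)

lemma N_sq {N e m : ℤ} (hcop : IsCoprime N e)
    (h : m ^ 2 = N * (N - e ^ 2) * (N - 81 * e ^ 2)) : ∃ a : ℤ, N = a ^ 2 ∨ N = -a ^ 2 := by
  by_cases h3 : (3 : ℤ) ∣ N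
  · have he3 : ¬ (3 : ℤ) ∣ e := by
      intro h3e
      have hu := hcop.isUnit_of_dvd' h3 h3e
      rw [Int.isUnit_iff] at hu
      omega
    obtain ⟨N1, rfl⟩ := h3
    obtain ⟨m1, rfl, hm1⟩ :=
      nine_cancel (X := N1 * (3 * N1 - e ^ 2) * (N1 - 27 * e ^ 2)) (by rw [h]; ring)
    obtain ⟨N2, rfl⟩ : (3 : ℤ) ∣ N1 :=
      three_dvd_of_sq (A := N1) (B := 9 * e ^ 2) he3 (by rw [hm1]; ring)
    obtain ⟨m2, rfl, hm2⟩ :=
      nine_cancel (X := N2 * (9 * N2 - e ^ 2) * (N2 - 9 * e ^ 2)) (by rw [hm1]; ring)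
    obtain ⟨N3, rfl⟩ : (3 : ℤ) ∣ N2 :=
      three_dvd_of_sq (A := 3 * N2) (B := 3 * e ^ 2) he3 (by rw [hm2]; ring)
    obtain ⟨m3, rfl, hm3⟩ :=
      nine_cancel (X := N3 * (27 * N3 - e ^ 2) * (N3 - 3 * e ^ 2)) (by rw [hm2]; ring)
    obtain ⟨N4, rfl⟩ : (3 : ℤ) ∣ N3 :=
      three_dvd_of_sq (A := 9 * N3) (B := e ^ 2) he3 (by rw [hm3]; ring)
    obtain ⟨m4, rfl, hm4⟩ :=
      nine_cancel (X := N4 * (81 * N4 - e ^ 2) * (N4 - e ^ 2)) (by rw [hm3]; ring)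
    have hcop4 : IsCoprime N4 e :=
      (((hcop.of_mul_left_right).of_mul_left_right).of_mul_left_right).of_mul_left_right
    obtain ⟨a4, ha | ha⟩ :=
      coprime_core (k := 81) (l := 1) hcop4 isCoprime_one_right (by rw [hm4]; ring)
    · exact ⟨9 * a4, Or.inl (by rw [ha]; ring)⟩
    · exact ⟨9 * a4, Or.inr (by rw [ha]; ring)⟩
  · have h81 : IsCoprime N 81 := by
      have h0 : IsCoprime (3 : ℤ) N := Int.prime_three.irreducible.coprime_iff_not_dvd.mpr h3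
      have := h0.symm.pow_right (n := 4)
      norm_num at this
      exact this
    exact coprime_core (k := 1) (l := 81) hcop h81 (by rw [h]; ring)

lemma divisors_80 {g : ℕ} (hg : g ∣ 80) :
    ∃ d k : ℤ, k ≠ 0 ∧ (g : ℤ) = d * k ^ 2 ∧ (d = 1 ∨ d = 2 ∨ d = 5 ∨ d = 10) := by
  have hmem : g ∈ Nat.divisors 80 := Nat.mem_divisors.mpr ⟨hg, by norm_num⟩
  have hdiv : Nat.divisors 80 = {1, 2, 4, 5, 8, 10, 16, 20, 40, 80} := by decide
  rw [hdiv] at hmem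
  simp only [Finset.mem_insert, Finset.mem_singleton] at hmem
  rcases hmem with rfl | rfl | rfl | rfl | rfl | rfl | rfl | rfl | rfl | rfl
  · exact ⟨1, 1, by norm_num, by norm_num, by norm_num⟩
  · exact ⟨2, 1, by norm_num, by norm_num, by norm_num⟩
  · exact ⟨1, 2, by norm_num, by norm_num, by norm_num⟩
  · exact ⟨5, 1, by norm_num, by norm_num, by norm_num⟩
  · exact ⟨2, 2, by norm_num, by norm_num, by norm_num⟩
  · exact ⟨10, 1, by norm_num, by norm_num, by norm_num⟩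
  · exact ⟨1, 4, by norm_num, by norm_num, by norm_num⟩
  · exact ⟨5, 2, by norm_num, by norm_num, by norm_num⟩
  · exact ⟨10, 2, by norm_num, by norm_num, by norm_num⟩
  · exact ⟨5, 4, by norm_num, by norm_num, by norm_num⟩

lemma class_PQ {a e m : ℤ} (hcop : IsCoprime a e) (hm : m ≠ 0)
    (h : m ^ 2 = (a ^ 2 - e ^ 2) * (a ^ 2 - 81 * e ^ 2)) :
    ∃ b : ℤ, b ≠ 0 ∧ (a ^ 2 - e ^ 2 = b ^ 2 ∨ a ^ 2 - e ^ 2 = -b ^ 2 ∨
      a ^ 2 - e ^ 2 = 5 * b ^ 2 ∨ a ^ 2 - e ^ 2 = -5 * b ^ 2) := by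
  have hae : ¬ ((2 : ℤ) ∣ a ∧ (2 : ℤ) ∣ e) := by
    rintro ⟨h2a, h2e⟩
    have hu := hcop.isUnit_of_dvd' h2a h2e
    rw [Int.isUnit_iff] at hu
    omega
  obtain ⟨P, hP⟩ : ∃ P : ℤ, P = a ^ 2 - e ^ 2 := ⟨_, rfl⟩
  obtain ⟨Q, hQ⟩ : ∃ Q : ℤ, Q = a ^ 2 - 81 * e ^ 2 := ⟨_, rfl⟩
  rw [← hP, ← hQ] at h
  rw [← hP]
  have hP0 : P ≠ 0 := by
    rintro rfl
    rw [zero_mul] at h
    exact hm ((pow_eq_zero_iff two_ne_zero).mp h)
  have hgpos : 0 < Int.gcd P Q := Int.gcd_pos_of_ne_zero_left _ hP0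
  have hg80 : ((Int.gcd P Q : ℕ) : ℤ) ∣ 80 := by
    have h1 : ((Int.gcd P Q : ℕ) : ℤ) ∣ 80 * e ^ 2 := by
      have e1 : 80 * e ^ 2 = P - Q := by rw [hP, hQ]; ring
      rw [e1]; exact dvd_sub (Int.gcd_dvd_left _ _) (Int.gcd_dvd_right _ _)
    have h2 : ((Int.gcd P Q : ℕ) : ℤ) ∣ 80 * a ^ 2 := by
      have e1 : 80 * a ^ 2 = 81 * P - Q := by rw [hP, hQ]; ring
      rw [e1]
      exact dvd_sub (Dvd.dvd.mul_left (Int.gcd_dvd_left _ _) _) (Int.gcd_dvd_right _ _)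
    obtain ⟨s, t, hst⟩ := (hcop.pow (m := 2) (n := 2))
    have e2 : (80 : ℤ) = s * (80 * a ^ 2) + t * (80 * e ^ 2) := by linear_combination (-80) * hst
    rw [e2]; exact dvd_add (Dvd.dvd.mul_left h2 _) (Dvd.dvd.mul_left h1 _)
  have hg80' : Int.gcd P Q ∣ 80 := Int.natCast_dvd_natCast.mp (by exact_mod_cast hg80)
  obtain ⟨d, k, hk0, hgdk, hd⟩ := divisors_80 hg80'
  have hcop' : Int.gcd (P / (Int.gcd P Q : ℕ)) (Q / (Int.gcd P Q : ℕ)) = 1 :=
    Int.gcd_div_gcd_div_gcd hgpos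
  have hPg : ((Int.gcd P Q : ℕ) : ℤ) * (P / (Int.gcd P Q : ℕ)) = P :=
    Int.mul_ediv_cancel' (Int.gcd_dvd_left _ _)
  have hQg : ((Int.gcd P Q : ℕ) : ℤ) * (Q / (Int.gcd P Q : ℕ)) = Q :=
    Int.mul_ediv_cancel' (Int.gcd_dvd_right _ _)
  obtain ⟨P', hP'⟩ : ∃ P' : ℤ, P' = P / (Int.gcd P Q : ℕ) := ⟨_, rfl⟩
  obtain ⟨Q', hQ'⟩ : ∃ Q' : ℤ, Q' = Q / (Int.gcd P Q : ℕ) := ⟨_, rfl⟩
  rw [← hP'] at hPg hcop'
  rw [← hQ'] at hQg hcop'
  rw [hgdk] at hPg hQg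
  have hdk0 : d * k ^ 2 ≠ 0 := by
    rw [← hgdk]; exact_mod_cast hgpos.ne'
  -- the cofactor product is a square
  have hdvd : d * k ^ 2 ∣ m := by
    have : (d * k ^ 2) ^ 2 ∣ m ^ 2 := ⟨P' * Q', by rw [h, ← hPg, ← hQg]; ring⟩
    exact (Int.pow_dvd_pow_iff two_ne_zero).mp this
  obtain ⟨m2, rfl⟩ := hdvd
  have hm2 : m2 ≠ 0 := right_ne_zero_of_mul hm
  have hPQ' : P' * Q' = m2 ^ 2 := by
    have : (d * k ^ 2) ^ 2 * (P' * Q') = (d * k ^ 2) ^ 2 * m2 ^ 2 := by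
      rw [← mul_pow, h, ← hPg, ← hQg]; ring
    exact mul_left_cancel₀ (pow_ne_zero 2 hdk0) this
  obtain ⟨b, hb⟩ := Int.sq_of_gcd_eq_one hcop' hPQ'
  obtain ⟨c, hc⟩ := Int.sq_of_gcd_eq_one (by rwa [Int.gcd_comm] at hcop' : Int.gcd Q' P' = 1)
    (by rw [mul_comm]; exact hPQ')
  have hP'0 : P' ≠ 0 := by
    rintro rfl; rw [mul_zero] at hPg; exact hP0 hPg.symm
  have hb0 : b ≠ 0 := by
    rintro rfl
    rcases hb with hb | hb <;> simp at hb <;> exact hP'0 hb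
  have hkb0 : k * b ≠ 0 := mul_ne_zero hk0 hb0
  -- signs agree
  obtain ⟨σ, hσ, hbσ, hcσ⟩ : ∃ σ : ℤ, (σ = 1 ∨ σ = -1) ∧ P' = σ * b ^ 2 ∧ Q' = σ * c ^ 2 := by
    rcases hb with hb | hb <;> rcases hc with hc | hc
    · exact ⟨1, Or.inl rfl, by rw [hb]; ring, by rw [hc]; ring⟩
    · exfalso
      have : m2 ^ 2 + (b * c) ^ 2 = 0 := by rw [← hPQ', hb, hc]; ring
      have : m2 ^ 2 = 0 := by nlinarith [sq_nonneg m2, sq_nonneg (b * c)]
      exact hm2 ((pow_eq_zero_iff two_ne_zero).mp this)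
    · exfalso
      have : m2 ^ 2 + (b * c) ^ 2 = 0 := by rw [← hPQ', hb, hc]; ring
      have : m2 ^ 2 = 0 := by nlinarith [sq_nonneg m2, sq_nonneg (b * c)]
      exact hm2 ((pow_eq_zero_iff two_ne_zero).mp this)
    · exact ⟨-1, Or.inr rfl, by rw [hb]; ring, by rw [hc]; ring⟩
  have hPf : P = σ * d * (k * b) ^ 2 := by rw [← hPg, hbσ]; ring
  have hQf : Q = σ * d * (k * c) ^ 2 := by rw [← hQg, hcσ]; ring
  refine ⟨k * b, hkb0, ?_⟩
  rcases hd with rfl | rfl | rfl | rfl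
  · rcases hσ with rfl | rfl
    · left; rw [hPf]; ring
    · right; left; rw [hPf]; ring
  · exfalso
    refine lemmaE (t := σ) (b := k * b) (c := k * c) hae ?_ ?_ ?_
    · rcases hσ with rfl | rfl <;> norm_num
    · rw [← hP, hPf]; ring
    · rw [← hQ, hQf]; ring
  · rcases hσ with rfl | rfl
    · right; right; left; rw [hPf]; ring
    · right; right; right; rw [hPf]; ring
  · exfalso
    refine lemmaE (t := 5 * σ) (b := k * b) (c := k * c) hae ?_ ?_ ?_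
    · rcases hσ with rfl | rfl <;> norm_num
    · rw [← hP, hPf]; ring
    · rw [← hQ, hQf]; ring

lemma int_core {N e m : ℤ} (hcop : IsCoprime N e) (he : e ≠ 0) (hm : m ≠ 0)
    (h : m ^ 2 = N * (N - e ^ 2) * (N - 81 * e ^ 2)) :
    ∃ a b : ℤ, a ≠ 0 ∧ b ≠ 0 ∧ N = a ^ 2 ∧
      (N - e ^ 2 = b ^ 2 ∨ N - e ^ 2 = -b ^ 2 ∨ N - e ^ 2 = 5 * b ^ 2 ∨
        N - e ^ 2 = -5 * b ^ 2) := by
  have hN0 : N ≠ 0 := by
    rintro rfl
    rw [zero_mul, zero_mul] at h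
    exact hm ((pow_eq_zero_iff two_ne_zero).mp h)
  have hNpos : 0 < N := by
    by_contra hle
    have hN : N < 0 := lt_of_le_of_ne (not_lt.mp hle) hN0
    have he2 : 0 < e ^ 2 := by positivity
    have h1 : N - e ^ 2 < 0 := by linarith
    have h2 : N - 81 * e ^ 2 < 0 := by linarith
    have : N * (N - e ^ 2) * (N - 81 * e ^ 2) < 0 :=
      mul_neg_of_pos_of_neg (mul_pos_of_neg_of_neg hN h1) h2
    nlinarith [sq_nonneg m]
  obtain ⟨a, ha | ha⟩ := N_sq hcop h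
  swap
  · exfalso; nlinarith [sq_nonneg a]
  subst ha
  have ha0 : a ≠ 0 := by
    rintro rfl; exact hN0 (by norm_num)
  have hdvd : a ∣ m := by
    have : a ^ 2 ∣ m ^ 2 := ⟨(a ^ 2 - e ^ 2) * (a ^ 2 - 81 * e ^ 2), by rw [h]; ring⟩
    exact (Int.pow_dvd_pow_iff two_ne_zero).mp this
  obtain ⟨m1, rfl⟩ := hdvd
  have hm1 : m1 ≠ 0 := right_ne_zero_of_mul hm
  have h' : m1 ^ 2 = (a ^ 2 - e ^ 2) * (a ^ 2 - 81 * e ^ 2) := by
    have : a ^ 2 * m1 ^ 2 = a ^ 2 * ((a ^ 2 - e ^ 2) * (a ^ 2 - 81 * e ^ 2)) := by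
      rw [← mul_pow, h]; ring
    exact mul_left_cancel₀ (pow_ne_zero 2 ha0) this
  have hcop' : IsCoprime a e := (IsCoprime.pow_left_iff (by norm_num : 0 < 2)).mp hcop
  obtain ⟨b, hb0, hb⟩ := class_PQ hcop' hm1 h'
  exact ⟨a, b, ha0, hb0, rfl, hb⟩

end IntLemmas

section RatLemmas

lemma rat_eq_int_of_sq {q : ℚ} {n : ℤ} (h : q ^ 2 = (n : ℚ)) : ∃ k : ℤ, q = (k : ℚ) := by
  have h1 : IsSquare ((n : ℤ) : ℚ) := ⟨q, by rw [← h]; ring⟩
  rw [Rat.isSquare_intCast_iff] at h1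
  obtain ⟨k, rfl⟩ := h1
  have h2 : q ^ 2 = (k : ℚ) ^ 2 := by rw [h]; push_cast; ring
  rcases sq_eq_sq_iff_eq_or_eq_neg.mp h2 with h3 | h3
  · exact ⟨k, h3⟩
  · exact ⟨-k, by rw [h3]; push_cast; ring⟩

/-- classification: the descent image lies in the classes of the two-torsion points -/
theorem CL {x : ℚ} (hx : InS x) : ∃ u v : ℚ, u ≠ 0 ∧ v ≠ 0 ∧ x = u ^ 2 ∧
    (x - 1 = v ^ 2 ∨ x - 1 = -v ^ 2 ∨ x - 1 = 5 * v ^ 2 ∨ x - 1 = -5 * v ^ 2) := by
  obtain ⟨y, hy0, hy⟩ := hx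
  obtain ⟨N, hN⟩ : ∃ N : ℤ, N = x.num := ⟨_, rfl⟩
  obtain ⟨D, hD⟩ : ∃ D : ℤ, D = (x.den : ℤ) := ⟨_, rfl⟩
  have hDpos : 0 < D := by rw [hD]; exact_mod_cast x.den_pos
  have hDq : (D : ℚ) ≠ 0 := by exact_mod_cast hDpos.ne'
  have hxND : x = (N : ℚ) / (D : ℚ) := by
    rw [hN, hD]; push_cast; exact (Rat.num_div_den x).symm
  have hcop : IsCoprime N D := by
    rw [hN, hD, Int.isCoprime_iff_gcd_eq_one]
    exact x.reduced
  have hsq : (y * (D : ℚ) ^ 2) ^ 2 = ((N * D * (N - D) * (N - 81 * D) : ℤ) : ℚ) := by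
    push_cast
    rw [mul_pow, hy, hxND]
    field_simp
  obtain ⟨z, hz⟩ := rat_eq_int_of_sq hsq
  have hz2 : z ^ 2 = N * D * (N - D) * (N - 81 * D) := by
    rw [hz] at hsq
    exact_mod_cast hsq
  have hz0 : z ≠ 0 := by
    rintro rfl
    have : y * (D : ℚ) ^ 2 = 0 := by rw [hz]; simp
    rcases mul_eq_zero.mp this with h | h
    · exact hy0 h
    · exact hDq (pow_eq_zero_iff two_ne_zero |>.mp h)
  have hcopD1 : IsCoprime D (N - D) := by
    have e1 : N - D = N + D * (-1) := by ring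
    rw [e1]; exact hcop.symm.add_mul_left_right (-1)
  have hcopD2 : IsCoprime D (N - 81 * D) := by
    have e1 : N - 81 * D = N + D * (-81) := by ring
    rw [e1]; exact hcop.symm.add_mul_left_right (-81)
  have hcopD : IsCoprime D (N * (N - D) * (N - 81 * D)) :=
    (hcop.symm.mul_right hcopD1).mul_right hcopD2
  obtain ⟨e, he | he⟩ := Int.sq_of_isCoprime hcopD (c := z) (by rw [hz2]; ring)
  swap
  · exfalso; nlinarith [sq_nonneg e]
  have he0 : e ≠ 0 := by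
    rintro rfl; rw [he] at hDpos; norm_num at hDpos
  have heq : (e : ℚ) ≠ 0 := by exact_mod_cast he0
  subst he
  have hdvd : e ∣ z := by
    have : e ^ 2 ∣ z ^ 2 := ⟨N * (N - e ^ 2) * (N - 81 * e ^ 2), by rw [hz2]; ring⟩
    exact (Int.pow_dvd_pow_iff two_ne_zero).mp this
  obtain ⟨m, rfl⟩ := hdvd
  have hm0 : m ≠ 0 := right_ne_zero_of_mul hz0
  have hm : m ^ 2 = N * (N - e ^ 2) * (N - 81 * e ^ 2) := by
    have : e ^ 2 * m ^ 2 = e ^ 2 * (N * (N - e ^ 2) * (N - 81 * e ^ 2)) := by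
      rw [← mul_pow, hz2]; ring
    exact mul_left_cancel₀ (pow_ne_zero 2 he0) this
  have hcop' : IsCoprime N e := (IsCoprime.pow_right_iff (by norm_num : 0 < 2)).mp hcop
  obtain ⟨a, b, ha0, hb0, hNa, hb⟩ := int_core hcop' he0 hm0 hm
  have haq : (a : ℚ) ≠ 0 := by exact_mod_cast ha0
  have hbq : (b : ℚ) ≠ 0 := by exact_mod_cast hb0
  have hx1 : x - 1 = ((N - e ^ 2 : ℤ) : ℚ) / (e : ℚ) ^ 2 := by
    rw [hxND]; push_cast; field_simp
  refine ⟨(a : ℚ) / e, (b : ℚ) / e, div_ne_zero haq heq, div_ne_zero hbq heq, ?_, ?_⟩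
  · rw [hxND, hNa]; push_cast; field_simp
  · rcases hb with hb | hb | hb | hb
    · left; rw [hx1, hb]; push_cast; field_simp
    · right; left; rw [hx1, hb]; push_cast; field_simp
    · right; right; left; rw [hx1, hb]; push_cast; field_simp
    · right; right; right; rw [hx1, hb]; push_cast; field_simp

lemma third_class {u v y d : ℚ} (hu : u ≠ 0) (hv : v ≠ 0) (hd0 : d ≠ 0) (hy0 : y ≠ 0)
    (hy : y ^ 2 = u ^ 2 * (u ^ 2 - 1) * (u ^ 2 - 81)) (hd : u ^ 2 - 1 = d * v ^ 2) :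
    ∃ w : ℚ, w ≠ 0 ∧ u ^ 2 - 81 = d * w ^ 2 := by
  refine ⟨y / (u * v * d), div_ne_zero hy0 (mul_ne_zero (mul_ne_zero hu hv) hd0), ?_⟩
  rw [div_pow, hy, hd]
  field_simp

theorem stepA {x : ℚ} (hx : InS x) :
    InS1 x ∨ InS1 (81 / x) ∨ InS1 (81 * (x - 1) / (x - 81)) ∨ InS1 ((x - 81) / (x - 1)) := by
  obtain ⟨u, v, hu, hv, rfl, hd⟩ := CL hx
  obtain ⟨y, hy0, hy⟩ := hx
  rcases hd with hd | hd | hd | hd
  · -- class 1
    obtain ⟨w, hw, h2⟩ := third_class (d := 1) hu hv one_ne_zero hy0 hy (by rw [hd]; ring)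
    left
    exact ⟨u, v, w, hu, hv, hw, rfl, hd, by rw [h2]; ring⟩
  · -- class -1
    obtain ⟨w, hw, h2⟩ := third_class (d := -1) hu hv (by norm_num) hy0 hy (by rw [hd]; ring)
    right; left
    have e1 : w ^ 2 = 81 - u ^ 2 := by linarith
    have e2 : v ^ 2 = 1 - u ^ 2 := by linarith
    refine ⟨9 / u, w / u, 9 * v / u, div_ne_zero (by norm_num) hu, div_ne_zero hw hu,
      div_ne_zero (mul_ne_zero (by norm_num) hv) hu, ?_, ?_, ?_⟩
    · rw [div_pow]; norm_num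
    · rw [div_pow, e1]; field_simp
    · rw [div_pow, mul_pow, e2]; field_simp; ring
  · -- class 5
    obtain ⟨w, hw, h2⟩ := third_class (d := 5) hu hv (by norm_num) hy0 hy hd
    right; right; left
    have e1 : u ^ 2 = 5 * w ^ 2 + 81 := by linarith
    have e2 : v ^ 2 = w ^ 2 + 16 := by linarith
    refine ⟨9 * v / w, 4 * u / w, 36 / w, div_ne_zero (mul_ne_zero (by norm_num) hv) hw,
      div_ne_zero (mul_ne_zero (by norm_num) hu) hw, div_ne_zero (by norm_num) hw, ?_, ?_, ?_⟩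
    · rw [hd, h2, div_pow, mul_pow]; field_simp; norm_num
    · rw [hd, h2, div_pow, mul_pow, e1, e2]; field_simp; ring
    · rw [hd, h2, div_pow, e2]; field_simp; ring
  · -- class -5
    obtain ⟨w, hw, h2⟩ := third_class (d := -5) hu hv (by norm_num) hy0 hy hd
    right; right; right
    have e1 : u ^ 2 = 1 - 5 * v ^ 2 := by linarith
    have e2 : w ^ 2 = v ^ 2 + 16 := by linarith
    refine ⟨w / v, 4 / v, 4 * u / v, div_ne_zero hw hv, div_ne_zero (by norm_num) hv,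
      div_ne_zero (mul_ne_zero (by norm_num) hu) hv, ?_, ?_, ?_⟩
    · rw [hd, h2, div_pow]; field_simp
    · rw [hd, h2, div_pow, e2]; field_simp; ring
    · rw [hd, h2, div_pow, mul_pow, e1, e2]; field_simp; ring

/-- the numerator of the halved point is smaller -/
lemma num_lt {u v w : ℚ} (h1 : u ^ 2 - 1 = v ^ 2) (h2 : u ^ 2 - 81 = w ^ 2) :
    ((u + v) * (u + w)).num.natAbs < (u ^ 2).num.natAbs := by
  obtain ⟨a, ha⟩ : ∃ a : ℤ, a = u.num := ⟨_, rfl⟩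
  obtain ⟨e, he⟩ : ∃ e : ℤ, e = (u.den : ℤ) := ⟨_, rfl⟩
  have hepos : 0 < e := by rw [he]; exact_mod_cast u.den_pos
  have heq : (e : ℚ) ≠ 0 := by exact_mod_cast hepos.ne'
  have hu : u = (a : ℚ) / (e : ℚ) := by
    rw [ha, he]; push_cast; exact (Rat.num_div_den u).symm
  obtain ⟨b, hb⟩ : ∃ b : ℤ, v * (e : ℚ) = (b : ℚ) :=
    rat_eq_int_of_sq (n := a ^ 2 - e ^ 2) (by
      push_cast; rw [mul_pow, ← h1, hu]; field_simp)
  obtain ⟨c, hc⟩ : ∃ c : ℤ, w * (e : ℚ) = (c : ℚ) :=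
    rat_eq_int_of_sq (n := a ^ 2 - 81 * e ^ 2) (by
      push_cast; rw [mul_pow, ← h2, hu]; field_simp)
  have hv : v = (b : ℚ) / (e : ℚ) := by rw [← hb]; field_simp
  have hw : w = (c : ℚ) / (e : ℚ) := by rw [← hc]; field_simp
  have hb2 : a ^ 2 - e ^ 2 = b ^ 2 := by
    have : ((a ^ 2 - e ^ 2 : ℤ) : ℚ) = ((b ^ 2 : ℤ) : ℚ) := by
      push_cast; rw [← hb, mul_pow, ← h1, hu]; field_simp
    exact_mod_cast this
  have hc2 : a ^ 2 - 81 * e ^ 2 = c ^ 2 := by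
    have : ((a ^ 2 - 81 * e ^ 2 : ℤ) : ℚ) = ((c ^ 2 : ℤ) : ℚ) := by
      push_cast; rw [← hc, mul_pow, ← h2, hu]; field_simp
    exact_mod_cast this
  have he2 : 1 ≤ e ^ 2 := by nlinarith
  have hab : a - b ≠ 0 := by
    intro h
    have : a = b := by linarith
    rw [this] at hb2
    nlinarith
  have hab' : a + b ≠ 0 := by
    intro h
    have : a = -b := by linarith
    rw [this] at hb2
    nlinarith
  have hac : a + c ≠ 0 := by
    intro h
    have : a = -c := by linarith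
    rw [this] at hc2
    nlinarith
  have habq : ((a : ℚ) - (b : ℚ)) ≠ 0 := by exact_mod_cast hab
  have key : (u + v) * (u + w) = Rat.divInt (a + c) (a - b) := by
    rw [Rat.divInt_eq_div, hu, hv, hw]
    push_cast
    have hb2q : (a : ℚ) ^ 2 - (e : ℚ) ^ 2 = (b : ℚ) ^ 2 := by exact_mod_cast hb2
    field_simp
    linear_combination ((a : ℚ) + (c : ℚ)) * hb2q
  rw [key, Rat.num_pow, ← ha]
  have hdvd : (Rat.divInt (a + c) (a - b)).num ∣ a + c := Rat.num_dvd (a + c) hab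
  have hle : (Rat.divInt (a + c) (a - b)).num.natAbs ≤ (a + c).natAbs :=
    Nat.le_of_dvd (Int.natAbs_pos.mpr hac) (Int.natAbs_dvd_natAbs.mpr hdvd)
  have hlt : (a + c).natAbs < (a ^ 2).natAbs := by
    rw [Int.natAbs_lt_iff_sq_lt]
    nlinarith [sq_nonneg (a - c), sq_nonneg (a ^ 2 - 2)]
  omega

theorem stepB {x : ℚ} (hx : InS1 x) : ∃ x' : ℚ, InS1 x' ∧ x'.num.natAbs < x.num.natAbs := by
  obtain ⟨u, v, w, hu, hv, hw, rfl, h1, h2⟩ := hx
  have huv : (u + v) * (u - v) = 1 := by linear_combination h1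
  have huw : (u + w) * (u - w) = 81 := by linear_combination h2
  have hvw : (v + w) * (v - w) = 80 := by linear_combination h2 - h1
  have n1 : u + v ≠ 0 := by rintro h; rw [h, zero_mul] at huv; norm_num at huv
  have n2 : u + w ≠ 0 := by rintro h; rw [h, zero_mul] at huw; norm_num at huw
  have n3 : v + w ≠ 0 := by rintro h; rw [h, zero_mul] at hvw; norm_num at hvw
  have n1' : u - v ≠ 0 := by rintro h; rw [h, mul_zero] at huv; norm_num at huv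
  have n2' : u - w ≠ 0 := by rintro h; rw [h, mul_zero] at huw; norm_num at huw
  have hR : InS ((u + v) * (u + w)) := by
    refine ⟨(u + v) * (u + w) * (v + w), mul_ne_zero (mul_ne_zero n1 n2) n3, ?_⟩
    have e1 : (u + v) * (u + w) - 1 = (v + u) * (v + w) := by linear_combination h1
    have e2 : (u + v) * (u + w) - 81 = (w + u) * (w + v) := by linear_combination h2
    rw [e1, e2]; ring
  have hR1 : (u + v) * (u + w) - 1 = (v + u) * (v + w) := by linear_combination h1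
  have hR2 : (u + v) * (u + w) - 81 = (w + u) * (w + v) := by linear_combination h2
  have h1n : u ^ 2 - 1 = (-v) ^ 2 := by rw [h1]; ring
  have h2n : u ^ 2 - 81 = (-w) ^ 2 := by rw [h2]; ring
  rcases stepA hR with h | h | h | h
  · exact ⟨_, h, num_lt h1 h2⟩
  · refine ⟨_, h, ?_⟩
    have e : 81 / ((u + v) * (u + w)) = (u + -v) * (u + -w) := by
      rw [div_eq_iff (mul_ne_zero n1 n2)]
      linear_combination (-1 : ℚ) * huw + (-(u + w) * (u - w)) * huv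
    rw [e]; exact num_lt h1n h2n
  · refine ⟨_, h, ?_⟩
    have e : 81 * ((u + v) * (u + w) - 1) / ((u + v) * (u + w) - 81) = (u + v) * (u + -w) := by
      rw [hR1, hR2, div_eq_iff (mul_ne_zero (by rwa [add_comm]) (by rwa [add_comm]))]
      linear_combination (-(v + u) * (v + w)) * huw
    rw [e]; exact num_lt h1 h2n
  · refine ⟨_, h, ?_⟩
    have e : ((u + v) * (u + w) - 81) / ((u + v) * (u + w) - 1) = (u + -v) * (u + w) := by
      rw [hR1, hR2, div_eq_iff (mul_ne_zero (by rwa [add_comm]) n3)]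
      linear_combination (-(w + u) * (w + v)) * huv
    rw [e]; exact num_lt h1n h2

theorem not_InS1_aux : ∀ n : ℕ, ∀ x : ℚ, x.num.natAbs = n → ¬ InS1 x := by
  intro n
  induction n using Nat.strong_induction_on with
  | _ n ih =>
    intro x hxn hx
    obtain ⟨x', hx', hlt⟩ := stepB hx
    exact ih _ (hxn ▸ hlt) x' rfl hx'

theorem not_InS1 (x : ℚ) : ¬ InS1 x := not_InS1_aux _ x rfl

theorem not_InS (x : ℚ) : ¬ InS x := by
  intro hx
  rcases stepA hx with h | h | h | h <;> exact not_InS1 _ h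

theorem no_points_E3 (x y : ℚ) (h : y ^ 2 = x * (x - 1) * (x - 81)) : y = 0 := by
  by_contra hy
  exact not_InS x ⟨y, hy, h⟩

theorem rational_points_15a (X Y : ℚ) (h : Y ^ 2 = X * (X + 9) * (X - 16)) :
    X = 0 ∨ X = -9 ∨ X = 16 ∨ X = 36 ∨ X = -4 := by
  by_cases h16 : X = 16
  · right; right; left; exact h16
  have hX : X - 16 ≠ 0 := sub_ne_zero.mpr h16
  have key := no_points_E3 (X * (X + 9) / (X - 16))
    (Y * (X ^ 2 - 32 * X - 144) / (X - 16) ^ 2) (by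
      field_simp
      linear_combination ((X ^ 2 - 32 * X - 144) ^ 2) * h)
  rw [div_eq_zero_iff] at key
  rcases key with key | key
  · rcases mul_eq_zero.mp key with hY | hq
    · rw [hY] at h
      have h0 : X * (X + 9) * (X - 16) = 0 := by rw [← h]; ring
      rcases mul_eq_zero.mp h0 with h0 | h0
      · rcases mul_eq_zero.mp h0 with h0 | h0
        · left; exact h0
        · right; left; linarith
      · exact absurd h0 hX
    · have : (X - 36) * (X + 4) = 0 := by linear_combination hq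
      rcases mul_eq_zero.mp this with h0 | h0
      · right; right; right; left; linarith
      · right; right; right; right; linarith
  · exact absurd (pow_eq_zero_iff two_ne_zero |>.mp key) hX

end RatLemmas

end Fermat.Agent.S51.DescentE3
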