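import Mathlib

set_option autoImplicit false

/-!
Classification of rational points on `y^2 = x (x-1) (x-81)` modulo squares (helper51):
if `r (r-1) (r-81)` is a nonzero rational square then `r` is a square and `r - 1` is
`±1` or `±5` times a square.
-/

namespace Fermat.Agent.S51.E3Class

/-- If `x * y = z^2` with `z ≠ 0`, then `x = σ g u^2`, `y = σ g v^2` with `g = gcd x y`,
`σ = ±1`. -/
theorem sq_factor2 {x y z : ℤ} (h : x * y = z ^ 2) (hz : z ≠ 0) :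
    ∃ σ u v : ℤ, (σ = 1 ∨ σ = -1) ∧ u ≠ 0 ∧ v ≠ 0 ∧ x = σ * (Int.gcd x y : ℤ) * u ^ 2 ∧
      y = σ * (Int.gcd x y : ℤ) * v ^ 2 := by
  have hx0 : x ≠ 0 := by
    rintro rfl
    rw [zero_mul] at h
    exact hz ((pow_eq_zero_iff (two_ne_zero)).mp h.symm)
  have hy0 : y ≠ 0 := by
    rintro rfl
    rw [mul_zero] at h
    exact hz ((pow_eq_zero_iff (two_ne_zero)).mp h.symm)
  have hgpos : 0 < Int.gcd x y := Int.gcd_pos_of_ne_zero_left _ hx0
  set g : ℤ := (Int.gcd x y : ℤ) with hg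
  have hg0 : g ≠ 0 := by
    have : (0 : ℤ) < g := by rw [hg]; exact_mod_cast hgpos
    exact this.ne'
  obtain ⟨x', hx'⟩ := Int.gcd_dvd_left x y
  obtain ⟨y', hy'⟩ := Int.gcd_dvd_right x y
  rw [← hg] at hx' hy'
  have hcop : Int.gcd x' y' = 1 := by
    have h1 := Int.gcd_div_gcd_div_gcd (i := x) (j := y) hgpos
    rw [← hg] at h1
    have e1 : x / g = x' := by rw [hx']; exact Int.mul_ediv_cancel_left _ hg0
    have e2 : y / g = y' := by rw [hy']; exact Int.mul_ediv_cancel_left _ hg0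
    rwa [e1, e2] at h1
  have hgz : g ∣ z := by
    rw [← Int.pow_dvd_pow_iff (two_ne_zero)]
    refine ⟨x' * y', ?_⟩
    rw [← h, hx', hy']; ring
  obtain ⟨z', hz'⟩ := hgz
  have hz'0 : z' ≠ 0 := by
    rintro rfl
    rw [mul_zero] at hz'
    exact hz hz'
  have hprod : x' * y' = z' ^ 2 := by
    have : g ^ 2 * (x' * y') = g ^ 2 * z' ^ 2 := by
      have h2 := h
      rw [hx', hy', hz'] at h2
      linear_combination h2
    exact mul_left_cancel₀ (pow_ne_zero 2 hg0) this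
  obtain ⟨u, hu⟩ := Int.sq_of_gcd_eq_one hcop hprod
  have hcop' : Int.gcd y' x' = 1 := by rwa [Int.gcd_comm]
  obtain ⟨v, hv⟩ := Int.sq_of_gcd_eq_one hcop' (by rw [mul_comm]; exact hprod)
  have hx'0 : x' ≠ 0 := by
    rintro rfl
    rw [mul_zero] at hx'
    exact hx0 hx'
  have hy'0 : y' ≠ 0 := by
    rintro rfl
    rw [mul_zero] at hy'
    exact hy0 hy'
  have hu0 : u ≠ 0 := by
    rintro rfl
    rcases hu with hu | hu <;> simp at hu <;> exact hx'0 hu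
  have hv0 : v ≠ 0 := by
    rintro rfl
    rcases hv with hv | hv <;> simp at hv <;> exact hy'0 hv
  have hzpos : 0 < z' ^ 2 := by positivity
  have hupos : 0 < u ^ 2 := by positivity
  have hvpos : 0 < v ^ 2 := by positivity
  rcases hu with hu | hu <;> rcases hv with hv | hv
  · exact ⟨1, u, v, Or.inl rfl, hu0, hv0, by rw [hx', hu]; ring, by rw [hy', hv]; ring⟩
  · exfalso
    rw [hu, hv] at hprod
    nlinarith [mul_pos hupos hvpos]
  · exfalso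
    rw [hu, hv] at hprod
    nlinarith [mul_pos hupos hvpos]
  · exact ⟨-1, u, v, Or.inr rfl, hu0, hv0, by rw [hx', hu]; ring, by rw [hy', hv]; ring⟩

theorem three_dvd_of_sq_add_sq {x y : ℤ} (h : (3 : ℤ) ∣ x ^ 2 + y ^ 2) :
    (3 : ℤ) ∣ x ∧ (3 : ℤ) ∣ y := by
  have key : ∀ a b : ZMod 3, a ^ 2 + b ^ 2 = 0 → a = 0 ∧ b = 0 := by decide
  have h' : ((x ^ 2 + y ^ 2 : ℤ) : ZMod 3) = 0 :=
    (ZMod.intCast_zmod_eq_zero_iff_dvd _ 3).mpr (by exact_mod_cast h)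
  push_cast at h'
  obtain ⟨hx, hy⟩ := key _ _ h'
  exact ⟨by exact_mod_cast (ZMod.intCast_zmod_eq_zero_iff_dvd _ 3).mp hx,
    by exact_mod_cast (ZMod.intCast_zmod_eq_zero_iff_dvd _ 3).mp hy⟩


theorem three_not_dvd_of_coprime {x e : ℤ} (hcop : IsCoprime x e) (hx : (3 : ℤ) ∣ x) :
    ¬ (3 : ℤ) ∣ e := by
  intro he
  have hu : IsUnit (3 : ℤ) := hcop.isUnit_of_dvd' hx he
  rw [Int.isUnit_iff] at hu
  omega

/-- `n = 3 a^2` is impossible. -/
theorem not_three (a e N : ℤ) (ha : a ≠ 0) (hcop : IsCoprime (3 * a ^ 2) e)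
    (h : N ^ 2 = 3 * a ^ 2 * (3 * a ^ 2 - e ^ 2) * (3 * a ^ 2 - 81 * e ^ 2)) : False := by
  have p3 : Prime (3 : ℤ) := by
    rw [Int.prime_iff_natAbs_prime]; norm_num
  have he3 : ¬ (3 : ℤ) ∣ e := three_not_dvd_of_coprime hcop ⟨a ^ 2, rfl⟩
  -- N = 3 a M
  have hdiv : (3 * a) ∣ N := by
    rw [← Int.pow_dvd_pow_iff (two_ne_zero)]
    refine ⟨(3 * a ^ 2 - e ^ 2) * (a ^ 2 - 27 * e ^ 2), ?_⟩
    rw [h]; ring
  obtain ⟨M, rfl⟩ := hdiv
  have h3a : (3 * a) ^ 2 ≠ 0 := pow_ne_zero 2 (mul_ne_zero (by norm_num) ha)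
  have hM : M ^ 2 = (3 * a ^ 2 - e ^ 2) * (a ^ 2 - 27 * e ^ 2) := by
    apply mul_left_cancel₀ h3a
    linear_combination h
  -- first reduction
  have h1 : (3 : ℤ) ∣ M ^ 2 + (e * a) ^ 2 :=
    ⟨a ^ 4 - 27 * a ^ 2 * e ^ 2 + 9 * e ^ 4, by rw [hM]; ring⟩
  obtain ⟨hM3, hea3⟩ := three_dvd_of_sq_add_sq h1
  have ha3 : (3 : ℤ) ∣ a := (p3.dvd_or_dvd hea3).resolve_left he3
  obtain ⟨a₁, rfl⟩ := ha3
  obtain ⟨M₁, rfl⟩ := hM3
  have hM₁ : M₁ ^ 2 = (27 * a₁ ^ 2 - e ^ 2) * (a₁ ^ 2 - 3 * e ^ 2) := by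
    have : (9 : ℤ) ≠ 0 := by norm_num
    apply mul_left_cancel₀ this
    linear_combination hM
  -- second reduction
  have h2 : (3 : ℤ) ∣ M₁ ^ 2 + (e * a₁) ^ 2 :=
    ⟨9 * a₁ ^ 4 - 27 * a₁ ^ 2 * e ^ 2 + e ^ 4, by rw [hM₁]; ring⟩
  obtain ⟨hM3', hea3'⟩ := three_dvd_of_sq_add_sq h2
  have ha3' : (3 : ℤ) ∣ a₁ := (p3.dvd_or_dvd hea3').resolve_left he3
  obtain ⟨a₂, rfl⟩ := ha3'
  obtain ⟨M₂, rfl⟩ := hM3'
  have hM₂ : 3 * M₂ ^ 2 = (243 * a₂ ^ 2 - e ^ 2) * (3 * a₂ ^ 2 - e ^ 2) := by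
    have : (3 : ℤ) ≠ 0 := by norm_num
    apply mul_left_cancel₀ this
    linear_combination hM₁
  have he4 : (3 : ℤ) ∣ e ^ 4 :=
    ⟨M₂ ^ 2 - 243 * a₂ ^ 4 + 82 * a₂ ^ 2 * e ^ 2, by linear_combination -hM₂⟩
  exact he3 (p3.dvd_of_dvd_pow he4)

theorem sq_mod_four (x : ℤ) : x ^ 2 % 4 = 0 ∨ x ^ 2 % 4 = 1 := by
  rcases Int.even_or_odd x with ⟨k, rfl⟩ | ⟨k, rfl⟩
  · left
    have : (k + k) ^ 2 = 4 * k ^ 2 := by ring
    omega
  · right
    have : (2 * k + 1) ^ 2 = 4 * (k ^ 2 + k) + 1 := by ring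
    omega

theorem odd_sq_mod_eight {x : ℤ} (hx : Odd x) : x ^ 2 % 8 = 1 := by
  obtain ⟨k, rfl⟩ := hx
  obtain ⟨t, ht⟩ := Int.even_mul_succ_self k
  have : (2 * k + 1) ^ 2 = 4 * (k * (k + 1)) + 1 := by ring
  omega

/-- The even classes are impossible. -/
theorem parity_contra (a e β γ m : ℤ) (hm : m = 1 ∨ m = -1 ∨ m = 5 ∨ m = -5)
    (hcop : IsCoprime a e) (h1 : a ^ 2 - e ^ 2 = 2 * m * β ^ 2)
    (h2 : a ^ 2 - 81 * e ^ 2 = 2 * m * γ ^ 2) : False := by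
  -- a, e both odd
  have hnot : ¬ (Even a ∧ Even e) := by
    rintro ⟨⟨k, hk⟩, ⟨l, hl⟩⟩
    have hu : IsUnit (2 : ℤ) := hcop.isUnit_of_dvd' ⟨k, by rw [hk]; ring⟩ ⟨l, by rw [hl]; ring⟩
    rw [Int.isUnit_iff] at hu
    omega
  have hev : Even (a ^ 2 - e ^ 2) := ⟨m * β ^ 2, by rw [h1]; ring⟩
  have hiff : Even a ↔ Even e := by
    rw [Int.even_sub, Int.even_pow' two_ne_zero, Int.even_pow' two_ne_zero] at hev
    exact hev
  have ha : Odd a := by
    rcases Int.even_or_odd a with h | h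
    · exact absurd ⟨h, hiff.mp h⟩ hnot
    · exact h
  have he : Odd e := by
    rcases Int.even_or_odd e with h | h
    · exact absurd ⟨hiff.mpr h, h⟩ hnot
    · exact h
  have ha8 := odd_sq_mod_eight ha
  have he8 := odd_sq_mod_eight he
  -- β, γ even
  have hβ : Even β := by
    rcases Int.even_or_odd β with h | h
    · exact h
    · exfalso
      have hb8 := odd_sq_mod_eight h
      rcases hm with rfl | rfl | rfl | rfl <;> omega
  have hγ : Even γ := by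
    rcases Int.even_or_odd γ with h | h
    · exact h
    · exfalso
      have hb8 := odd_sq_mod_eight h
      rcases hm with rfl | rfl | rfl | rfl <;> omega
  obtain ⟨β₁, rfl⟩ := hβ
  obtain ⟨γ₁, rfl⟩ := hγ
  have hb4 := sq_mod_four β₁
  have hc4 := sq_mod_four γ₁
  have hB : (β₁ + β₁) ^ 2 = 4 * β₁ ^ 2 := by ring
  have hC : (γ₁ + γ₁) ^ 2 = 4 * γ₁ ^ 2 := by ring
  rw [hB] at h1
  rw [hC] at h2
  rcases hm with rfl | rfl | rfl | rfl <;> omega


theorem divisors_81 {g : ℕ} (hg : (g : ℤ) ∣ 81) : g = 1 ∨ g = 3 ∨ g = 9 ∨ g = 27 ∨ g = 81 := by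
  have h1 : g ∣ 81 := by exact_mod_cast hg
  have h2 : g ∈ Nat.divisors 81 := Nat.mem_divisors.mpr ⟨h1, by norm_num⟩
  have h3 : Nat.divisors 81 = {1, 3, 9, 27, 81} := by decide
  rw [h3] at h2
  simpa using h2

theorem divisors_80 {g : ℕ} (hg : (g : ℤ) ∣ 80) :
    g = 1 ∨ g = 2 ∨ g = 4 ∨ g = 5 ∨ g = 8 ∨ g = 10 ∨ g = 16 ∨ g = 20 ∨ g = 40 ∨ g = 80 := by
  have h1 : g ∣ 80 := by exact_mod_cast hg
  have h2 : g ∈ Nat.divisors 80 := Nat.mem_divisors.mpr ⟨h1, by norm_num⟩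
  have h3 : Nat.divisors 80 = {1, 2, 4, 5, 8, 10, 16, 20, 40, 80} := by decide
  rw [h3] at h2
  simpa using h2

/-- The integer core of the classification. -/
theorem core (n e N : ℤ) (hcop : IsCoprime n e) (hN : N ≠ 0)
    (h : N ^ 2 = n * (n - e ^ 2) * (n - 81 * e ^ 2)) :
    (∃ a : ℤ, n = a ^ 2) ∧
      ∃ δ : ℤ, (δ = 1 ∨ δ = -1 ∨ δ = 5 ∨ δ = -5) ∧ ∃ b : ℤ, n - e ^ 2 = δ * b ^ 2 := by
  have hNpos : 0 < N ^ 2 := by positivity
  have hn0 : n ≠ 0 := by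
    rintro rfl
    simp at h
    exact hN h
  have hnpos : 0 < n := by
    by_contra hneg
    have hn : n < 0 := lt_of_le_of_ne (not_lt.mp hneg) hn0
    have he2 : 0 ≤ e ^ 2 := sq_nonneg e
    have hB : n - e ^ 2 < 0 := by linarith
    have hC : n - 81 * e ^ 2 < 0 := by linarith
    have h1 : 0 < n * (n - e ^ 2) := mul_pos_of_neg_of_neg hn hB
    have h2 : n * (n - e ^ 2) * (n - 81 * e ^ 2) < 0 := mul_neg_of_pos_of_neg h1 hC
    linarith
  have hnB : IsCoprime n (n - e ^ 2) := by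
    have := (hcop.pow_right (n := 2)).neg_right.add_mul_left_right 1
    have e1 : n - e ^ 2 = -e ^ 2 + n * 1 := by ring
    rw [e1]
    exact this
  -- Step 1: n is a square or three times a square
  have hprod1 : n * ((n - e ^ 2) * (n - 81 * e ^ 2)) = N ^ 2 := by rw [h]; ring
  obtain ⟨σ, u, v, hσ, hu0, hv0, hnu, -⟩ := sq_factor2 hprod1 hN
  have hg81 : ((Int.gcd n ((n - e ^ 2) * (n - 81 * e ^ 2)) : ℕ) : ℤ) ∣ 81 := by
    set g' : ℤ := ((Int.gcd n ((n - e ^ 2) * (n - 81 * e ^ 2)) : ℕ) : ℤ) with hg'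
    have d1 : g' ∣ n := Int.gcd_dvd_left _ _
    have d2 : g' ∣ (n - e ^ 2) * (n - 81 * e ^ 2) := Int.gcd_dvd_right _ _
    have c1 : IsCoprime g' (n - e ^ 2) := IsCoprime.of_isCoprime_of_dvd_left hnB d1
    have d3 : g' ∣ n - 81 * e ^ 2 := c1.dvd_of_dvd_mul_left d2
    have d4 : g' ∣ 81 * e ^ 2 := by
      have e1 : 81 * e ^ 2 = n - (n - 81 * e ^ 2) := by ring
      rw [e1]
      exact dvd_sub d1 d3
    have c2 : IsCoprime g' (e ^ 2) := (IsCoprime.of_isCoprime_of_dvd_left hcop d1).pow_right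
    exact c2.dvd_of_dvd_mul_right d4
  have hsq : ∃ a : ℤ, n = a ^ 2 := by
    have hσ1 : σ = 1 := by
      rcases hσ with rfl | rfl
      · rfl
      · exfalso
        have hg0 : (0 : ℤ) ≤ ((Int.gcd n ((n - e ^ 2) * (n - 81 * e ^ 2)) : ℕ) : ℤ) :=
          Int.natCast_nonneg _
        have : 0 ≤ ((Int.gcd n ((n - e ^ 2) * (n - 81 * e ^ 2)) : ℕ) : ℤ) * u ^ 2 :=
          mul_nonneg hg0 (sq_nonneg u)
        nlinarith
    subst hσ1
    rcases divisors_81 hg81 with hg | hg | hg | hg | hg <;> rw [hg] at hnu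
    · exact ⟨u, by rw [hnu]; ring⟩
    · exfalso
      have hn3 : n = 3 * u ^ 2 := by rw [hnu]; push_cast; ring
      rw [hn3] at hcop h
      exact not_three u e N hu0 hcop h
    · exact ⟨3 * u, by rw [hnu]; push_cast; ring⟩
    · exfalso
      have hn3 : n = 3 * (3 * u) ^ 2 := by rw [hnu]; push_cast; ring
      rw [hn3] at hcop h
      exact not_three (3 * u) e N (mul_ne_zero (by norm_num) hu0) hcop h
    · exact ⟨9 * u, by rw [hnu]; push_cast; ring⟩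
  refine ⟨hsq, ?_⟩
  obtain ⟨a, rfl⟩ := hsq
  have ha0 : a ≠ 0 := by
    rintro rfl
    exact hn0 (by ring)
  have hcop' : IsCoprime a e := IsCoprime.of_isCoprime_of_dvd_left hcop ⟨a, by ring⟩
  -- Step 2: divide by a
  have hdiv : a ∣ N := by
    rw [← Int.pow_dvd_pow_iff (two_ne_zero)]
    exact ⟨(a ^ 2 - e ^ 2) * (a ^ 2 - 81 * e ^ 2), by rw [h]; ring⟩
  obtain ⟨M, rfl⟩ := hdiv
  have hM0 : M ≠ 0 := by
    rintro rfl
    exact hN (by ring)
  have hprod2 : (a ^ 2 - e ^ 2) * (a ^ 2 - 81 * e ^ 2) = M ^ 2 := by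
    apply mul_left_cancel₀ (pow_ne_zero 2 ha0)
    linear_combination -h
  obtain ⟨τ, p, q, hτ, hp0, hq0, hBp, hCq⟩ := sq_factor2 hprod2 hM0
  have hg80 : ((Int.gcd (a ^ 2 - e ^ 2) (a ^ 2 - 81 * e ^ 2) : ℕ) : ℤ) ∣ 80 := by
    set g : ℤ := ((Int.gcd (a ^ 2 - e ^ 2) (a ^ 2 - 81 * e ^ 2) : ℕ) : ℤ) with hg
    have d1 : g ∣ a ^ 2 - e ^ 2 := Int.gcd_dvd_left _ _
    have d2 : g ∣ a ^ 2 - 81 * e ^ 2 := Int.gcd_dvd_right _ _
    have d4 : g ∣ 80 * e ^ 2 := by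
      have e1 : 80 * e ^ 2 = (a ^ 2 - e ^ 2) - (a ^ 2 - 81 * e ^ 2) := by ring
      rw [e1]
      exact dvd_sub d1 d2
    have ceB : IsCoprime (a ^ 2 - e ^ 2) e := by
      have := (hcop.symm).add_mul_left_right (-e)
      have h' : IsCoprime e (a ^ 2 - e ^ 2) := by
        have e1 : a ^ 2 - e ^ 2 = a ^ 2 + e * -e := by ring
        rw [e1]
        exact this
      exact h'.symm
    have c2 : IsCoprime g (e ^ 2) := (IsCoprime.of_isCoprime_of_dvd_left ceB d1).pow_right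
    exact c2.dvd_of_dvd_mul_right d4
  -- Step 3: enumerate the gcd
  have hfin : ∀ (m k : ℤ), (m = 1 ∨ m = -1 ∨ m = 5 ∨ m = -5) →
      a ^ 2 - e ^ 2 = 2 * m * (k * p) ^ 2 → a ^ 2 - 81 * e ^ 2 = 2 * m * (k * q) ^ 2 → False :=
    fun m k hm e1 e2 => parity_contra a e (k * p) (k * q) m hm hcop' e1 e2
  rcases divisors_80 hg80 with hg | hg | hg | hg | hg | hg | hg | hg | hg | hg <;>
    rw [hg] at hBp hCq <;> push_cast at hBp hCq
  · -- g = 1
    rcases hτ with rfl | rfl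
    · exact ⟨1, Or.inl rfl, p, by rw [hBp]; ring⟩
    · exact ⟨-1, Or.inr (Or.inl rfl), p, by rw [hBp]; ring⟩
  · -- g = 2
    exfalso
    rcases hτ with rfl | rfl
    · exact hfin 1 1 (Or.inl rfl) (by rw [hBp]; ring) (by rw [hCq]; ring)
    · exact hfin (-1) 1 (Or.inr (Or.inl rfl)) (by rw [hBp]; ring) (by rw [hCq]; ring)
  · -- g = 4
    rcases hτ with rfl | rfl
    · exact ⟨1, Or.inl rfl, 2 * p, by rw [hBp]; ring⟩
    · exact ⟨-1, Or.inr (Or.inl rfl), 2 * p, by rw [hBp]; ring⟩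
  · -- g = 5
    rcases hτ with rfl | rfl
    · exact ⟨5, Or.inr (Or.inr (Or.inl rfl)), p, by rw [hBp]; ring⟩
    · exact ⟨-5, Or.inr (Or.inr (Or.inr rfl)), p, by rw [hBp]; ring⟩
  · -- g = 8
    exfalso
    rcases hτ with rfl | rfl
    · exact hfin 1 2 (Or.inl rfl) (by rw [hBp]; ring) (by rw [hCq]; ring)
    · exact hfin (-1) 2 (Or.inr (Or.inl rfl)) (by rw [hBp]; ring) (by rw [hCq]; ring)
  · -- g = 10
    exfalso
    rcases hτ with rfl | rfl
    · exact hfin 5 1 (Or.inr (Or.inr (Or.inl rfl))) (by rw [hBp]; ring) (by rw [hCq]; ring)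
    · exact hfin (-5) 1 (Or.inr (Or.inr (Or.inr rfl))) (by rw [hBp]; ring) (by rw [hCq]; ring)
  · -- g = 16
    rcases hτ with rfl | rfl
    · exact ⟨1, Or.inl rfl, 4 * p, by rw [hBp]; ring⟩
    · exact ⟨-1, Or.inr (Or.inl rfl), 4 * p, by rw [hBp]; ring⟩
  · -- g = 20
    rcases hτ with rfl | rfl
    · exact ⟨5, Or.inr (Or.inr (Or.inl rfl)), 2 * p, by rw [hBp]; ring⟩
    · exact ⟨-5, Or.inr (Or.inr (Or.inr rfl)), 2 * p, by rw [hBp]; ring⟩
  · -- g = 40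
    exfalso
    rcases hτ with rfl | rfl
    · exact hfin 5 2 (Or.inr (Or.inr (Or.inl rfl))) (by rw [hBp]; ring) (by rw [hCq]; ring)
    · exact hfin (-5) 2 (Or.inr (Or.inr (Or.inr rfl))) (by rw [hBp]; ring) (by rw [hCq]; ring)
  · -- g = 80
    rcases hτ with rfl | rfl
    · exact ⟨5, Or.inr (Or.inr (Or.inl rfl)), 4 * p, by rw [hBp]; ring⟩
    · exact ⟨-5, Or.inr (Or.inr (Or.inr rfl)), 4 * p, by rw [hBp]; ring⟩


/-- Classification of the rational points of `y^2 = x (x-1) (x-81)` modulo squares. -/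
theorem classify (r s : ℚ) (hs : s ≠ 0) (h : s ^ 2 = r * (r - 1) * (r - 81)) :
    IsSquare r ∧ (IsSquare (r - 1) ∨ IsSquare (-(r - 1)) ∨ IsSquare (5 * (r - 1)) ∨
      IsSquare (-(5 * (r - 1)))) := by
  set n : ℤ := r.num with hn
  set d : ℤ := (r.den : ℤ) with hd
  have hdpos : 0 < d := by rw [hd]; exact_mod_cast r.den_pos
  have hd0 : (d : ℚ) ≠ 0 := by exact_mod_cast hdpos.ne'
  have hr : r = (n : ℚ) / (d : ℚ) := by
    rw [hn, hd]; push_cast; exact (Rat.num_div_den r).symm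
  have hcop : IsCoprime n d := Rat.isCoprime_num_den r
  -- the integer `n (n-d) (n-81 d) d` is a square
  have hsqQ : IsSquare (((n * (n - d) * (n - 81 * d)) * d : ℤ) : ℚ) := by
    refine ⟨s * (d : ℚ) ^ 2, ?_⟩
    have : (s * (d : ℚ) ^ 2) * (s * (d : ℚ) ^ 2) = s ^ 2 * (d : ℚ) ^ 4 := by ring
    rw [this, h, hr]
    push_cast
    field_simp
  rw [Rat.isSquare_intCast_iff] at hsqQ
  obtain ⟨N, hN⟩ := hsqQ
  have hN' : d * (n * (n - d) * (n - 81 * d)) = N ^ 2 := by rw [pow_two, ← hN]; ring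
  have hcopT : IsCoprime d (n * (n - d) * (n - 81 * d)) := by
    have c1 : IsCoprime d n := hcop.symm
    have c2 : IsCoprime d (n - d) := by
      have := c1.add_mul_left_right (-1)
      have e1 : n - d = n + d * -1 := by ring
      rw [e1]; exact this
    have c3 : IsCoprime d (n - 81 * d) := by
      have := c1.add_mul_left_right (-81)
      have e1 : n - 81 * d = n + d * -81 := by ring
      rw [e1]; exact this
    exact (c1.mul_right c2).mul_right c3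
  obtain ⟨e, he⟩ := Int.sq_of_gcd_eq_one (Int.isCoprime_iff_gcd_eq_one.mp hcopT) hN'
  have hde : d = e ^ 2 := by
    rcases he with he | he
    · exact he
    · exfalso
      have : 0 ≤ e ^ 2 := sq_nonneg e
      linarith
  have he0 : e ≠ 0 := by
    rintro rfl
    rw [hde] at hdpos
    simp at hdpos
  have hs2 : s ^ 2 ≠ 0 := pow_ne_zero 2 hs
  have hT0 : n * (n - d) * (n - 81 * d) ≠ 0 := by
    intro h0
    apply hs2
    rw [h, hr]
    have h0' : ((n * (n - d) * (n - 81 * d) : ℤ) : ℚ) = 0 := by exact_mod_cast h0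
    push_cast at h0'
    field_simp
    linear_combination h0'
  have hN0 : N ≠ 0 := by
    rintro rfl
    have : d * (n * (n - d) * (n - 81 * d)) = 0 := by rw [hN']; ring
    rcases mul_eq_zero.mp this with h1 | h1
    · exact hdpos.ne' h1
    · exact hT0 h1
  have hediv : e ∣ N := by
    rw [← Int.pow_dvd_pow_iff (two_ne_zero)]
    exact ⟨n * (n - d) * (n - 81 * d), by rw [← hN', hde]⟩
  obtain ⟨N', rfl⟩ := hediv
  have hN'0 : N' ≠ 0 := by
    rintro rfl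
    exact hN0 (by ring)
  have hcore : N' ^ 2 = n * (n - e ^ 2) * (n - 81 * e ^ 2) := by
    apply mul_left_cancel₀ (pow_ne_zero 2 he0)
    rw [hde] at hN'
    linear_combination -hN'
  have hcop' : IsCoprime n e := by
    rw [hde] at hcop
    exact (IsCoprime.pow_right_iff (by norm_num)).mp hcop
  obtain ⟨⟨a, ha⟩, δ, hδ, b, hb⟩ := core n e N' hcop' hN'0 hcore
  have heQ : (e : ℚ) ≠ 0 := by exact_mod_cast he0
  have hdQ : (d : ℚ) = (e : ℚ) ^ 2 := by exact_mod_cast hde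
  have hnQ : (n : ℚ) = (a : ℚ) ^ 2 := by exact_mod_cast ha
  have hbQ : (n : ℚ) - (e : ℚ) ^ 2 = (δ : ℚ) * (b : ℚ) ^ 2 := by exact_mod_cast hb
  have hr1 : r - 1 = (δ : ℚ) * ((b : ℚ) / (e : ℚ)) ^ 2 := by
    rw [hr, hdQ]
    field_simp
    linear_combination hbQ
  refine ⟨⟨(a : ℚ) / (e : ℚ), ?_⟩, ?_⟩
  · rw [hr, hdQ, hnQ]
    field_simp
  · rcases hδ with rfl | rfl | rfl | rfl
    · left
      exact ⟨(b : ℚ) / (e : ℚ), by rw [hr1]; push_cast; ring⟩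
    · right; left
      exact ⟨(b : ℚ) / (e : ℚ), by rw [hr1]; push_cast; ring⟩
    · right; right; left
      exact ⟨5 * (b : ℚ) / (e : ℚ), by rw [hr1]; push_cast; ring⟩
    · right; right; right
      exact ⟨5 * (b : ℚ) / (e : ℚ), by rw [hr1]; push_cast; ring⟩

end Fermat.Agent.S51.E3Class
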