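import Fermat.Statements.S51

set_option autoImplicit false

/-!
S51 glue (helper51): the final statement follows from the three interface theorems
(Part A end statements for p = 3 and p = 5, and Part B+C+D), taken here as hypotheses.
-/

namespace Fermat.Agent.S51

open WeierstrassCurve

/-- Shape of the Part A end statement for `p = 3`. -/
def IfaceThree : Prop :=
  ∀ (W : WeierstrassCurve ℤ), W.Δ ≠ 0 → ¬ W.ModRepIsIrreducible 3 →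
    ∃ x : ℚ, 3 * x ^ 4 + (W.b₂ : ℚ) * x ^ 3 + 3 * (W.b₄ : ℚ) * x ^ 2 + 3 * (W.b₆ : ℚ) * x
      + (W.b₈ : ℚ) = 0

/-- Shape of the Part A end statement for `p = 5`. -/
def IfaceFive : Prop :=
  ∀ (W : WeierstrassCurve ℤ), W.Δ ≠ 0 → ¬ W.ModRepIsIrreducible 5 →
    ∃ (e₁ e₂ : ℚ) (α β : AlgebraicClosure ℚ),
      α + β = (e₁ : AlgebraicClosure ℚ) ∧ α * β = (e₂ : AlgebraicClosure ℚ) ∧ α ≠ β ∧
      α ^ 4 - (W.b₄ : AlgebraicClosure ℚ) * α ^ 2 - 2 * (W.b₆ : AlgebraicClosure ℚ) * α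
          - (W.b₈ : AlgebraicClosure ℚ)
        = β * (4 * α ^ 3 + (W.b₂ : AlgebraicClosure ℚ) * α ^ 2
          + 2 * (W.b₄ : AlgebraicClosure ℚ) * α + (W.b₆ : AlgebraicClosure ℚ)) ∧
      β ^ 4 - (W.b₄ : AlgebraicClosure ℚ) * β ^ 2 - 2 * (W.b₆ : AlgebraicClosure ℚ) * β
          - (W.b₈ : AlgebraicClosure ℚ)
        = α * (4 * β ^ 3 + (W.b₂ : AlgebraicClosure ℚ) * β ^ 2
          + 2 * (W.b₄ : AlgebraicClosure ℚ) * β + (W.b₆ : AlgebraicClosure ℚ))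

/-- Shape of the Part B (+C+D) end statement. -/
def IfaceB : Prop :=
  ∀ (W : WeierstrassCurve ℤ), W.Δ ≠ 0 → W.IsSemistableModel →
    ∀ (x₃ : ℚ), 3 * x₃ ^ 4 + (W.b₂ : ℚ) * x₃ ^ 3 + 3 * (W.b₄ : ℚ) * x₃ ^ 2 + 3 * (W.b₆ : ℚ) * x₃
      + (W.b₈ : ℚ) = 0 →
    ∀ (K : Type) [Field K] [CharZero K] (e₁ e₂ : ℚ) (α β : K),
      α + β = (e₁ : K) → α * β = (e₂ : K) → α ≠ β →
      α ^ 4 - (W.b₄ : K) * α ^ 2 - 2 * (W.b₆ : K) * α - (W.b₈ : K)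
        = β * (4 * α ^ 3 + (W.b₂ : K) * α ^ 2 + 2 * (W.b₄ : K) * α + (W.b₆ : K)) →
      β ^ 4 - (W.b₄ : K) * β ^ 2 - 2 * (W.b₆ : K) * β - (W.b₈ : K)
        = α * (4 * β ^ 3 + (W.b₂ : K) * β ^ 2 + 2 * (W.b₄ : K) * β + (W.b₆ : K)) →
      False

theorem result_of_ifaces (h3 : IfaceThree) (h5 : IfaceFive) (hB : IfaceB)
    (W : WeierstrassCurve ℤ) (hΔ : W.Δ ≠ 0) (hW : W.IsSemistableModel) :
    W.ModRepIsIrreducible 3 ∨ W.ModRepIsIrreducible 5 := by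
  by_contra hcon
  rw [not_or] at hcon
  obtain ⟨x₃, hx₃⟩ := h3 W hΔ hcon.1
  obtain ⟨e₁, e₂, α, β, hs, hp, hne, hα, hβ⟩ := h5 W hΔ hcon.2
  exact hB W hΔ hW x₃ hx₃ (AlgebraicClosure ℚ) e₁ e₂ α β hs hp hne hα hβ

end Fermat.Agent.S51
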