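import Fermat.Agent.S51.Glue
import Fermat.Agent.S51.PartB

set_option autoImplicit false

namespace Fermat.Agent.S51

/-- The Part B (+D) interface of `Glue.lean`, given the rational points of
`Y^2 = X(X+9)(X-16)` (Part C). -/
theorem ifaceB_of_points
    (hC : ∀ X Y : ℚ, Y ^ 2 = X * (X + 9) * (X - 16) →
      X = 0 ∨ X = -9 ∨ X = 16 ∨ X = 36 ∨ X = -4) : IfaceB := by
  intro W hΔ hW x₃ hx₃ K _ _ e₁ e₂ α β hs hp hne hα hβ
  exact false_of_three_five_data hC W hΔ hW x₃ hx₃ e₁ e₂ α β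
    (by rw [eq_ratCast]; exact hs) (by rw [eq_ratCast]; exact hp) hne hα hβ

end Fermat.Agent.S51
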