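import Fermat.Agent.S51.TorsEnd
import Fermat.Agent.S51.Glue
import Fermat.Agent.S51_helper44.TorsFacts

set_option autoImplicit false

/-!
S51, Part A final wrappers (helper76): the interface statements `IfaceThree` and `IfaceFive`
of `Glue.lean`, from `TorsEnd.lean` (end statements modulo `TorsOK`) and helper44's
`tors_facts_three` / `tors_facts_five` (A2).
-/

namespace Fermat.Agent.S51

open WeierstrassCurve

theorem map_castRingHom_Δ_ne_zero (W : WeierstrassCurve ℤ) (hΔ : W.Δ ≠ 0) :
    (W.map (Int.castRingHom ℚ)).Δ ≠ 0 := by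
  rw [WeierstrassCurve.map_Δ]
  exact fun h => hΔ ((map_eq_zero_iff _ (Int.castRingHom ℚ).injective_int).mp h)

theorem ifaceThree : IfaceThree := fun W hΔ h =>
  Torsion.exists_rat_root_psi3_of_torsOK W
    (Fermat.Agent.S51_helper44.tors_facts_three _ (map_castRingHom_Δ_ne_zero W hΔ)) h

theorem ifaceFive : IfaceFive := fun W hΔ h =>
  Torsion.exists_rat_five_data_of_torsOK W
    (Fermat.Agent.S51_helper44.tors_facts_five _ (map_castRingHom_Δ_ne_zero W hΔ)) h

end Fermat.Agent.S51
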