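import Fermat.Agent.S51.TorsionBasic

set_option autoImplicit false

namespace Fermat.Agent.S51.Torsion

open WeierstrassCurve

variable {F : Type*} [Field F] (W : WeierstrassCurve.Affine F)

/-- the polynomial `preΨ₄`, as a function -/
def pre4 (x : F) : F :=
  2 * x ^ 6 + W.b₂ * x ^ 5 + 5 * W.b₄ * x ^ 4 + 10 * W.b₆ * x ^ 3 + 10 * W.b₈ * x ^ 2
    + (W.b₂ * W.b₈ - W.b₄ * W.b₆) * x + (W.b₄ * W.b₈ - W.b₆ ^ 2)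

/-- the fifth division polynomial, as a function -/
def psi5 (x : F) : F := pre4 W x * dupDen W x ^ 2 - psi3 W x ^ 3

/-- Bezout certificate: `psi3` and `dupDen` have no common root when `Δ ≠ 0` -/
lemma cert_psi3_dupDen (x : F) :
    (48 * x ^ 2 + 8 * x * W.b₂ - W.b₂ ^ 2 + 32 * W.b₄) * psi3 W x
    + (-36 * x ^ 3 - 9 * x ^ 2 * W.b₂ + x * W.b₂ ^ 2 - 42 * x * W.b₄ + W.b₂ * W.b₄ - 27 * W.b₆) * dupDen W x = W.Δ := by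
  simp only [psi3, dupDen, WeierstrassCurve.Δ]
  linear_combination (12 * x ^ 2 + 2 * x * W.b₂ + 8 * W.b₄) * W.b_relation

/-- Bezout certificate: `psi3` and `pre4` have no common root when `Δ ≠ 0` -/
lemma cert_psi3_pre4 (x : F) :
    (
      8 * x ^ 5 * W.b₂ ^ 3 - 288 * x ^ 5 * W.b₂ * W.b₄ + 1728 * x ^ 5 * W.b₆ + 4 * x ^ 4 * W.b₂ ^
      4 - 152 * x ^ 4 * W.b₂ ^ 2 * W.b₄ + 720 * x ^ 4 * W.b₂ * W.b₆ + 384 * x ^ 4 * W.b₄ ^ 2 + 16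
      * x ^ 3 * W.b₂ ^ 3 * W.b₄ - 48 * x ^ 3 * W.b₂ ^ 2 * W.b₆ - 544 * x ^ 3 * W.b₂ * W.b₄ ^ 2 +
      4032 * x ^ 3 * W.b₄ * W.b₆ + 50 * x ^ 2 * W.b₂ ^ 3 * W.b₆ - 26 * x ^ 2 * W.b₂ ^ 2 * W.b₄ ^ 2
      - 1944 * x ^ 2 * W.b₂ * W.b₄ * W.b₆ + 960 * x ^ 2 * W.b₄ ^ 3 + 8856 * x ^ 2 * W.b₆ ^ 2 + 9 *
      x * W.b₂ ^ 4 * W.b₆ - 9 * x * W.b₂ ^ 3 * W.b₄ ^ 2 - 332 * x * W.b₂ ^ 2 * W.b₄ * W.b₆ + 312 *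
      x * W.b₂ * W.b₄ ^ 3 + 1476 * x * W.b₂ * W.b₆ ^ 2 - 912 * x * W.b₄ ^ 2 * W.b₆ + W.b₂ ^ 5 *
      W.b₆ - W.b₂ ^ 4 * W.b₄ ^ 2 - 51 * W.b₂ ^ 3 * W.b₄ * W.b₆ + 47 * W.b₂ ^ 2 * W.b₄ ^ 3 + 132 *
      W.b₂ ^ 2 * W.b₆ ^ 2 + 488 * W.b₂ * W.b₄ ^ 2 * W.b₆ - 448 * W.b₄ ^ 4 - 1692 * W.b₄ * W.b₆ ^ 2) * psi3 W x
    + (
      -12 * x ^ 3 * W.b₂ ^ 3 + 432 * x ^ 3 * W.b₂ * W.b₄ - 2592 * x ^ 3 * W.b₆ - 4 * x ^ 2 * W.b₂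
      ^ 4 + 156 * x ^ 2 * W.b₂ ^ 2 * W.b₄ - 648 * x ^ 2 * W.b₂ * W.b₆ - 576 * x ^ 2 * W.b₄ ^ 2 - 8
      * x * W.b₂ ^ 3 * W.b₄ + 36 * x * W.b₂ ^ 2 * W.b₆ + 264 * x * W.b₂ * W.b₄ ^ 2 - 2160 * x *
      W.b₄ * W.b₆ - 21 * W.b₂ ^ 3 * W.b₆ + 17 * W.b₂ ^ 2 * W.b₄ ^ 2 + 792 * W.b₂ * W.b₄ * W.b₆ -
      576 * W.b₄ ^ 3 - 2916 * W.b₆ ^ 2) * pre4 W x = 4 * W.Δ ^ 2 := by
  simp only [psi3, pre4, WeierstrassCurve.Δ]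
  linear_combination (
      -28 * x ^ 5 * W.b₂ ^ 3 + 1008 * x ^ 5 * W.b₂ * W.b₄ - 6048 * x ^ 5 * W.b₆ - 12 * x ^ 4 *
      W.b₂ ^ 4 + 460 * x ^ 4 * W.b₂ ^ 2 * W.b₄ - 2088 * x ^ 4 * W.b₂ * W.b₆ - 1344 * x ^ 4 * W.b₄
      ^ 2 - x ^ 3 * W.b₂ ^ 5 + 20 * x ^ 3 * W.b₂ ^ 3 * W.b₄ - 84 * x ^ 3 * W.b₂ ^ 2 * W.b₆ + 488 *
      x ^ 3 * W.b₂ * W.b₄ ^ 2 - 5040 * x ^ 3 * W.b₄ * W.b₆ - 3 * x ^ 2 * W.b₂ ^ 4 * W.b₄ - 31 * x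
      ^ 2 * W.b₂ ^ 3 * W.b₆ + 141 * x ^ 2 * W.b₂ ^ 2 * W.b₄ ^ 2 + 792 * x ^ 2 * W.b₂ * W.b₄ * W.b₆
      - 1344 * x ^ 2 * W.b₄ ^ 3 - 5076 * x ^ 2 * W.b₆ ^ 2 - 3 * x * W.b₂ ^ 4 * W.b₆ + 124 * x *
      W.b₂ ^ 2 * W.b₄ * W.b₆ - 360 * x * W.b₂ * W.b₆ ^ 2 - 768 * x * W.b₄ ^ 2 * W.b₆ - W.b₂ ^ 4 *
      W.b₈ - 21 * W.b₂ ^ 2 * W.b₆ ^ 2 + 320 * W.b₂ * W.b₄ ^ 2 * W.b₆ - 256 * W.b₄ ^ 4 - 1152 *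
      W.b₄ * W.b₆ ^ 2) * W.b_relation

lemma dupDen_homog (x : F) :
    4 * dupNum W x ^ 3 + W.b₂ * dupNum W x ^ 2 * dupDen W x
      + 2 * W.b₄ * dupNum W x * dupDen W x ^ 2 + W.b₆ * dupDen W x ^ 3 = pre4 W x ^ 2 := by
  simp only [dupNum, dupDen, pre4]
  linear_combination (
      -13 * x ^ 8 - 8 * x ^ 7 * W.b₂ - x ^ 6 * W.b₂ ^ 2 - 28 * x ^ 6 * W.b₄ - 6 * x ^ 5 * W.b₂ *
      W.b₄ - 38 * x ^ 5 * W.b₆ - 7 * x ^ 4 * W.b₂ * W.b₆ - 8 * x ^ 4 * W.b₄ ^ 2 - 22 * x ^ 4 *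
      W.b₈ - 4 * x ^ 3 * W.b₂ * W.b₈ - 16 * x ^ 3 * W.b₄ * W.b₆ - 8 * x ^ 2 * W.b₄ * W.b₈ - 7 * x
      ^ 2 * W.b₆ ^ 2 - 6 * x * W.b₆ * W.b₈ - W.b₈ ^ 2) * W.b_relation

lemma five_identity (x : F) :
    dupNum W x ^ 4 - W.b₄ * dupNum W x ^ 2 * dupDen W x ^ 2
      - 2 * W.b₆ * dupNum W x * dupDen W x ^ 3 - W.b₈ * dupDen W x ^ 4
      - x * dupDen W x * (4 * dupNum W x ^ 3 + W.b₂ * dupNum W x ^ 2 * dupDen W x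
      + 2 * W.b₄ * dupNum W x * dupDen W x ^ 2 + W.b₆ * dupDen W x ^ 3)
      = - (psi3 W x * psi5 W x) := by
  simp only [dupNum, dupDen, psi5, pre4, psi3]
  linear_combination (
      48 * x ^ 12 + 40 * x ^ 11 * W.b₂ + 11 * x ^ 10 * W.b₂ ^ 2 + 96 * x ^ 10 * W.b₄ + x ^ 9 *
      W.b₂ ^ 3 + 52 * x ^ 9 * W.b₂ * W.b₄ + 72 * x ^ 9 * W.b₆ + 7 * x ^ 8 * W.b₂ ^ 2 * W.b₄ + 38 *
      x ^ 8 * W.b₂ * W.b₆ + 60 * x ^ 8 * W.b₄ ^ 2 + 16 * x ^ 8 * W.b₈ + 5 * x ^ 7 * W.b₂ ^ 2 *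
      W.b₆ + 16 * x ^ 7 * W.b₂ * W.b₄ ^ 2 + 8 * x ^ 7 * W.b₂ * W.b₈ + 84 * x ^ 7 * W.b₄ * W.b₆ + x
      ^ 6 * W.b₂ ^ 2 * W.b₈ + 22 * x ^ 6 * W.b₂ * W.b₄ * W.b₆ + 12 * x ^ 6 * W.b₄ ^ 3 + 16 * x ^ 6
      * W.b₄ * W.b₈ + 27 * x ^ 6 * W.b₆ ^ 2 + 4 * x ^ 5 * W.b₂ * W.b₄ * W.b₈ + 7 * x ^ 5 * W.b₂ *
      W.b₆ ^ 2 + 24 * x ^ 5 * W.b₄ ^ 2 * W.b₆ + 8 * x ^ 5 * W.b₆ * W.b₈ + 2 * x ^ 4 * W.b₂ * W.b₆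
      * W.b₈ + 4 * x ^ 4 * W.b₄ ^ 2 * W.b₈ + 15 * x ^ 4 * W.b₄ * W.b₆ ^ 2 + 4 * x ^ 3 * W.b₄ *
      W.b₆ * W.b₈ + 3 * x ^ 3 * W.b₆ ^ 3 + x ^ 2 * W.b₆ ^ 2 * W.b₈) * W.b_relation


variable {W}

lemma dupDen_mul_pow {x β : F} (he : β * dupDen W x = dupNum W x) :
    dupDen W β * dupDen W x ^ 3 = pre4 W x ^ 2 := by
  have h1 : dupDen W β = 4 * β ^ 3 + W.b₂ * β ^ 2 + 2 * W.b₄ * β + W.b₆ := rfl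
  rw [h1, ← dupDen_homog, ← he]
  ring

lemma five_rel {x β : F} (he : β * dupDen W x = dupNum W x) :
    (dupNum W β - x * dupDen W β) * dupDen W x ^ 4 = -(psi3 W x * psi5 W x) := by
  have h1 : dupDen W β = 4 * β ^ 3 + W.b₂ * β ^ 2 + 2 * W.b₄ * β + W.b₆ := rfl
  have h2 : dupNum W β = β ^ 4 - W.b₄ * β ^ 2 - 2 * W.b₆ * β - W.b₈ := rfl
  rw [h1, h2, ← five_identity, ← he]
  ring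

lemma dupDen_ne_zero_of_psi3 (hΔ : W.Δ ≠ 0) {x : F} (h : psi3 W x = 0) : dupDen W x ≠ 0 := by
  intro hd
  apply hΔ
  rw [← cert_psi3_dupDen W x, h, hd, mul_zero, mul_zero, add_zero]

lemma pre4_ne_zero_of_psi3 [CharZero F] (hΔ : W.Δ ≠ 0) {x : F} (h : psi3 W x = 0) :
    pre4 W x ≠ 0 := by
  intro hd
  have h4 : (4 : F) * W.Δ ^ 2 ≠ 0 := mul_ne_zero (by norm_num) (pow_ne_zero 2 hΔ)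
  apply h4
  rw [← cert_psi3_pre4 W x, h, hd, mul_zero, mul_zero, add_zero]

/-- a root of `psi5` is a root of none of `psi3`, `dupDen`, `pre4` -/
lemma ne_zero_of_psi5 [CharZero F] (hΔ : W.Δ ≠ 0) {x : F} (h : psi5 W x = 0) :
    psi3 W x ≠ 0 ∧ dupDen W x ≠ 0 ∧ pre4 W x ≠ 0 := by
  have h3 : psi3 W x ≠ 0 := by
    intro h3
    have hd := dupDen_ne_zero_of_psi3 hΔ h3
    have hp := pre4_ne_zero_of_psi3 hΔ h3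
    rw [psi5, h3] at h
    simp only [ne_eq, OfNat.ofNat_ne_zero, not_false_eq_true, zero_pow, sub_zero, mul_eq_zero,
      pow_eq_zero_iff] at h
    rcases h with h | h
    · exact hp h
    · exact hd h
  refine ⟨h3, ?_, ?_⟩
  · intro hd
    rw [psi5, hd] at h
    simp only [ne_eq, OfNat.ofNat_ne_zero, not_false_eq_true, zero_pow, mul_zero, zero_sub,
      neg_eq_zero, pow_eq_zero_iff] at h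
    exact h3 h
  · intro hp
    rw [psi5, hp] at h
    simp only [zero_mul, zero_sub, neg_eq_zero, ne_eq, OfNat.ofNat_ne_zero, not_false_eq_true,
      pow_eq_zero_iff] at h
    exact h3 h

end Fermat.Agent.S51.Torsion
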