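import Mathlib.AlgebraicGeometry.EllipticCurve.Affine.Point
import Mathlib.Tactic

set_option autoImplicit false
set_option linter.unusedSectionVars false

namespace Fermat.Agent.S51.Torsion

open WeierstrassCurve WeierstrassCurve.Affine

variable {F : Type*} [Field F] (W : WeierstrassCurve.Affine F)

/-- numerator of the duplication formula -/
def dupNum (x : F) : F := x ^ 4 - W.b₄ * x ^ 2 - 2 * W.b₆ * x - W.b₈

/-- denominator of the duplication formula -/
def dupDen (x : F) : F := 4 * x ^ 3 + W.b₂ * x ^ 2 + 2 * W.b₄ * x + W.b₆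

/-- the third division polynomial, as a function -/
def psi3 (x : F) : F := 3 * x ^ 4 + W.b₂ * x ^ 3 + 3 * W.b₄ * x ^ 2 + 3 * W.b₆ * x + W.b₈

lemma psi3_eq (x : F) : psi3 W x = x * dupDen W x - dupNum W x := by
  simp only [psi3, dupDen, dupNum]; ring

variable {W}

lemma sq_sub_negY {x y : F} (h : W.Equation x y) : (y - W.negY x y) ^ 2 = dupDen W x := by
  rw [Affine.equation_iff] at h
  simp only [dupDen, negY, WeierstrassCurve.b₂, WeierstrassCurve.b₄, WeierstrassCurve.b₆]
  linear_combination 4 * h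

lemma eq_negY_iff {x y : F} (h : W.Equation x y) :
    y = W.negY x y ↔ dupDen W x = 0 := by
  rw [← sq_sub_negY h, sq_eq_zero_iff, sub_eq_zero]

variable [DecidableEq F]

lemma addX_self_mul_dupDen {x y : F} (h : W.Equation x y) (hy : y ≠ W.negY x y) :
    W.addX x x (W.slope x x y y) * dupDen W x = dupNum W x := by
  have hne : y - W.negY x y ≠ 0 := sub_ne_zero.mpr hy
  have hkey : (3 * x ^ 2 + 2 * W.a₂ * x + W.a₄ - W.a₁ * y) ^ 2
      + W.a₁ * (3 * x ^ 2 + 2 * W.a₂ * x + W.a₄ - W.a₁ * y) * (y - W.negY x y)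
      - (W.a₂ + 2 * x) * (y - W.negY x y) ^ 2 = dupNum W x := by
    rw [Affine.equation_iff] at h
    simp only [dupNum, negY, WeierstrassCurve.b₄, WeierstrassCurve.b₆,
      WeierstrassCurve.b₈]
    linear_combination (-8 * x - W.a₁ ^ 2 - 4 * W.a₂) * h
  rw [Affine.slope_of_Y_ne rfl hy, ← sq_sub_negY h, ← hkey]
  simp only [addX]
  field_simp
  ring

/-- `P` is an affine point with `x`-coordinate `x`. -/
def XCoord (P : W.Point) (x : F) : Prop :=
  ∃ (y : F) (h : W.Nonsingular x y), P = Point.some x y h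

lemma XCoord.ne_zero {P : W.Point} {x : F} (h : XCoord P x) : P ≠ 0 := by
  obtain ⟨y, hn, rfl⟩ := h
  exact Point.some_ne_zero hn

lemma exists_xCoord_of_ne_zero {P : W.Point} (h : P ≠ 0) : ∃ x, XCoord P x := by
  rcases P with _ | ⟨x, y, hn⟩
  · exact absurd rfl h
  · exact ⟨x, y, hn, rfl⟩

lemma XCoord.neg {P : W.Point} {x : F} (h : XCoord P x) : XCoord (-P) x := by
  obtain ⟨y, hn, rfl⟩ := h
  exact ⟨W.negY x y, (nonsingular_neg x y).mpr hn, Point.neg_some hn⟩

lemma XCoord.unique {P : W.Point} {x x' : F} (h : XCoord P x) (h' : XCoord P x') : x = x' := by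
  obtain ⟨y, hn, rfl⟩ := h
  obtain ⟨y', hn', h2⟩ := h'
  exact (Point.some.inj h2).1

lemma XCoord.eq_or_eq_neg {P Q : W.Point} {x : F} (h : XCoord P x) (h' : XCoord Q x) :
    P = Q ∨ P = -Q := by
  obtain ⟨y, hn, rfl⟩ := h
  obtain ⟨y', hn', rfl⟩ := h'
  exact Point.X_eq_iff.mp rfl

lemma XCoord.dbl_eq_zero_iff {P : W.Point} {x : F} (h : XCoord P x) :
    2 • P = 0 ↔ dupDen W x = 0 := by
  obtain ⟨y, hn, rfl⟩ := h
  rw [_root_.two_nsmul, ← eq_negY_iff hn.1]
  constructor
  · intro h0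
    by_contra hy
    rw [Point.add_self_of_Y_ne hy] at h0
    exact Point.some_ne_zero _ h0
  · intro hy
    exact Point.add_self_of_Y_eq hy

lemma XCoord.dbl {P : W.Point} {x : F} (h : XCoord P x) (hd : dupDen W x ≠ 0) :
    ∃ x', XCoord (2 • P) x' ∧ x' * dupDen W x = dupNum W x := by
  obtain ⟨y, hn, rfl⟩ := h
  have hy : y ≠ W.negY x y := fun hy => hd ((eq_negY_iff hn.1).mp hy)
  refine ⟨W.addX x x (W.slope x x y y), ?_, addX_self_mul_dupDen hn.1 hy⟩
  rw [_root_.two_nsmul, Point.add_self_of_Y_ne hy]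
  exact ⟨_, _, rfl⟩

/-- three-torsion points have `x`-coordinate a root of `psi3` -/
lemma XCoord.psi3_eq_zero {P : W.Point} {x : F} (h : XCoord P x) (h3 : 3 • P = 0) :
    psi3 W x = 0 := by
  have h2 : 2 • P = -P := by
    rw [eq_neg_iff_add_eq_zero, ← succ_nsmul]; exact h3
  have hd : dupDen W x ≠ 0 := by
    intro hd
    have := h.dbl_eq_zero_iff.mpr hd
    rw [h2, neg_eq_zero] at this
    exact h.ne_zero this
  obtain ⟨x', hx', he⟩ := h.dbl hd
  rw [h2] at hx'
  have : x' = x := hx'.unique h.neg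
  rw [psi3_eq, ← he, this]; ring

/-- converse: a root of `psi3` which is not a root of `dupDen` gives a three-torsion point -/
lemma XCoord.three_nsmul_eq_zero {P : W.Point} {x : F} (h : XCoord P x) (h3 : psi3 W x = 0)
    (hd : dupDen W x ≠ 0) : 3 • P = 0 := by
  obtain ⟨x', hx', he⟩ := h.dbl hd
  have hxx : x' = x := by
    rw [psi3_eq, sub_eq_zero] at h3
    have : x' * dupDen W x = x * dupDen W x := by rw [he, h3]
    exact mul_right_cancel₀ hd this
  subst hxx
  rcases hx'.eq_or_eq_neg h with h2 | h2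
  · exfalso
    have : P = 0 := by
      have : 2 • P = 1 • P := by rw [one_nsmul]; exact h2
      rw [_root_.two_nsmul, one_nsmul] at this
      exact add_eq_left.mp this
    exact h.ne_zero this
  · rw [succ_nsmul, h2, neg_add_cancel]


/-- five-torsion points: `x(P)` and `x(2P)` are exchanged by the duplication map -/
lemma XCoord.five_data {P : W.Point} {x : F} (h : XCoord P x) (h5 : 5 • P = 0) :
    ∃ β, XCoord (2 • P) β ∧ x ≠ β ∧ dupDen W x ≠ 0 ∧ dupDen W β ≠ 0 ∧
      β * dupDen W x = dupNum W x ∧ x * dupDen W β = dupNum W β := by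
  have hP := h.ne_zero
  have h2 : 2 • P ≠ 0 := by
    intro h2
    apply hP
    have : 5 • P = 2 • (2 • P) + P := by rw [← mul_nsmul]; rw [← succ_nsmul]
    rw [h5, h2, smul_zero, zero_add] at this
    exact this.symm
  have hd : dupDen W x ≠ 0 := fun hd => h2 (h.dbl_eq_zero_iff.mpr hd)
  obtain ⟨β, hβ, he⟩ := h.dbl hd
  have h4' : 2 • (2 • P) = -P := by
    rw [eq_neg_iff_add_eq_zero, ← mul_nsmul, ← succ_nsmul]; exact h5
  have h4 : 2 • (2 • P) ≠ 0 := by
    rw [h4']; exact neg_ne_zero.mpr hP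
  have hdβ : dupDen W β ≠ 0 := fun hd => h4 (hβ.dbl_eq_zero_iff.mpr hd)
  obtain ⟨x'', hx'', he''⟩ := hβ.dbl hdβ
  rw [h4'] at hx''
  have hxx : x'' = x := hx''.unique h.neg
  subst hxx
  refine ⟨β, hβ, ?_, hd, hdβ, he, he''⟩
  rintro rfl
  -- 2P = ±P
  rcases hβ.eq_or_eq_neg h with h' | h'
  · apply hP
    rw [_root_.two_nsmul] at h'
    exact add_eq_left.mp h'
  · apply hP
    have h3 : 3 • P = 0 := by rw [succ_nsmul, h', neg_add_cancel]
    have : 5 • P = 2 • (3 • P) - P := by
      rw [← mul_nsmul, eq_sub_iff_add_eq, ← succ_nsmul]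
    rw [h5, h3, smul_zero, zero_sub] at this
    exact neg_eq_zero.mp this.symm

/-- converse of `XCoord.five_data`, used to construct five-torsion points -/
lemma XCoord.five_nsmul_eq_zero {P : W.Point} {x β : F} (h : XCoord P x)
    (hd : dupDen W x ≠ 0) (hdβ : dupDen W β ≠ 0) (he : β * dupDen W x = dupNum W x)
    (he' : x * dupDen W β = dupNum W β) (h3 : psi3 W x ≠ 0) : 5 • P = 0 := by
  obtain ⟨β', hβ', hb⟩ := h.dbl hd
  have : β' = β := mul_right_cancel₀ hd (hb.trans he.symm)
  subst this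
  obtain ⟨x'', hx'', hb''⟩ := hβ'.dbl hdβ
  have : x'' = x := mul_right_cancel₀ hdβ (hb''.trans he'.symm)
  subst this
  rcases hx''.eq_or_eq_neg h with h4 | h4
  · exfalso
    apply h3
    apply h.psi3_eq_zero
    have : 2 • (2 • P) = 3 • P + P := by rw [← mul_nsmul, ← succ_nsmul]
    rw [h4] at this
    exact (add_eq_right.mp this.symm)
  · have : 5 • P = 2 • (2 • P) + P := by rw [← mul_nsmul, ← succ_nsmul]
    rw [this, h4, neg_add_cancel]


/-- the set of affine points with `x`-coordinate in a given finite set -/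
def pointsOver (W : WeierstrassCurve.Affine F) (A : Finset F) : Set W.Point :=
  {P | ∃ x ∈ A, XCoord P x}

lemma pointsOver_singleton_subset (x : F) :
    ∃ Q : W.Point, pointsOver W {x} ⊆ {Q, -Q} := by
  by_cases hne : (pointsOver W {x}).Nonempty
  · obtain ⟨Q, x', hx', hQ⟩ := hne
    rw [Finset.mem_singleton] at hx'
    subst hx'
    refine ⟨Q, ?_⟩
    rintro P ⟨x'', hx'', hP⟩
    rw [Finset.mem_singleton] at hx''
    subst hx''
    rcases hP.eq_or_eq_neg hQ with h | h
    · exact Or.inl h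
    · exact Or.inr h
  · refine ⟨0, ?_⟩
    rw [Set.not_nonempty_iff_eq_empty] at hne
    rw [hne]; exact Set.empty_subset _

lemma pointsOver_finite_and_ncard_le (A : Finset F) :
    (pointsOver W A).Finite ∧ (pointsOver W A).ncard ≤ 2 * A.card := by
  classical
  induction A using Finset.induction_on with
  | empty =>
    have : pointsOver W (∅ : Finset F) = ∅ := by
      ext P; simp [pointsOver]
    rw [this]; simp
  | insert a A ha ih =>
    have hunion : pointsOver W (insert a A) = pointsOver W {a} ∪ pointsOver W A := by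
      ext P
      simp only [pointsOver, Finset.mem_insert, Set.mem_ofPred_eq, Set.mem_union,
        Finset.mem_singleton]
      constructor
      · rintro ⟨x, rfl | hx, hP⟩
        · exact Or.inl ⟨x, rfl, hP⟩
        · exact Or.inr ⟨x, hx, hP⟩
      · rintro (⟨x, rfl, hP⟩ | ⟨x, hx, hP⟩)
        · exact ⟨x, Or.inl rfl, hP⟩
        · exact ⟨x, Or.inr hx, hP⟩
    obtain ⟨Q, hQ⟩ := pointsOver_singleton_subset (W := W) a
    have hfin1 : (pointsOver W {a}).Finite := (Set.toFinite {Q, -Q}).subset hQ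
    have hcard1 : (pointsOver W {a}).ncard ≤ 2 :=
      (Set.ncard_le_ncard hQ (Set.toFinite _)).trans
        ((Set.ncard_insert_le _ _).trans (by rw [Set.ncard_singleton]))
    refine ⟨hunion ▸ hfin1.union ih.1, ?_⟩
    rw [hunion, Finset.card_insert_of_notMem ha]
    calc (pointsOver W {a} ∪ pointsOver W A).ncard
        ≤ (pointsOver W {a}).ncard + (pointsOver W A).ncard := Set.ncard_union_le _ _
      _ ≤ 2 + 2 * A.card := Nat.add_le_add hcard1 ih.2
      _ = 2 * (A.card + 1) := by ring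

/-- a set of points all of whose nonzero members have `x`-coordinate in a finite set `A`
is finite, of cardinality at most `2 * |A| + 1` -/
lemma finite_and_ncard_le_of_xCoord_mem (T : Set W.Point) (A : Finset F)
    (hT : ∀ P ∈ T, ∀ x, XCoord P x → x ∈ A) :
    T.Finite ∧ T.ncard ≤ 2 * A.card + 1 := by
  have hsub : T ⊆ insert 0 (pointsOver W A) := by
    intro P hP
    by_cases h0 : P = 0
    · exact Or.inl h0
    · obtain ⟨x, hx⟩ := exists_xCoord_of_ne_zero h0
      exact Or.inr ⟨x, hT P hP x hx, hx⟩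
  obtain ⟨hfin, hcard⟩ := pointsOver_finite_and_ncard_le (W := W) A
  refine ⟨(hfin.insert 0).subset hsub, ?_⟩
  calc T.ncard ≤ (insert 0 (pointsOver W A)).ncard := Set.ncard_le_ncard hsub (hfin.insert 0)
    _ ≤ (pointsOver W A).ncard + 1 := Set.ncard_insert_le _ _
    _ ≤ 2 * A.card + 1 := by omega

end Fermat.Agent.S51.Torsion
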