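import Mathlib

set_option autoImplicit false

/-!
Rational points of the plane model `J5(t) = J3(r)` of `X0(15)`, where
`J5(t) = (t^2+10t+5)^3/t` and `J3(r) = (r+27)(r+3)^3/r`: the polynomial identities.

Coordinates `A = NA/D`, `B = NB/(t D)` (two eta quotients of degree two) satisfy
`A^2 B + A (B^2+5B+9) - B = 0`, `r A^2 B^3 = 729`, `t ((1-4A-A^2) B - A^3 - 9A^2 - 9A) = 125`.
-/

namespace Fermat.Agent.S51

/-- numerator of `A` -/
def x015NA (t r : ℚ) : ℚ :=
  (146*t+3582*t^2+5175*t^3+2230*t^4+405*t^5+33*t^6+t^7) + r*(-25-613*t-281*t^2-20*t^3-t^4)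
    + r^2*(-99*t-33*t^2) + r^3*(-3*t-t^2)

/-- numerator of `B` -/
def x015NB (t r : ℚ) : ℚ :=
  (3125+100*t-11*t^2-272*t^3-1450*t^4-1090*t^5-275*t^6-28*t^7-t^8)
    + r*(-6750*t-5742*t^2-1269*t^3-180*t^4-9*t^5) + r^2*(-900*t-216*t^2+18*t^3) + r^3*(-25*t-2*t^2+t^3)

/-- common denominator -/
def x015D (t : ℚ) : ℚ :=
  25 - 315*t^2 - 520*t^3 - 189*t^4 - 24*t^5 - t^6

/-- coefficient of `r^0` in the cofactor `x015H1` -/
def x015H1_0 (t : ℚ) : ℚ :=
  -1953125 - 48187500*t - 74465000*t^2 - 40156475*t^3 - 33411135*t^4 - 27590450*t^5 + 11275895*t^6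
    + 29647890*t^7 + 17989760*t^8 + 5722070*t^9 + 1122135*t^10 + 141755*t^11 + 11260*t^12 +
    510*t^13 + 10*t^14

/-- coefficient of `r^1` in the cofactor `x015H1` -/
def x015H1_1 (t : ℚ) : ℚ :=
  -3500000*t + 102983125*t^2 + 250001150*t^3 + 228791455*t^4 + 109729095*t^5 + 35156620*t^6 +
    8946630*t^7 + 1771450*t^8 + 240265*t^9 + 19735*t^10 + 860*t^11 + 15*t^12

/-- coefficient of `r^2` in the cofactor `x015H1` -/
def x015H1_2 (t : ℚ) : ℚ :=
  328125*t + 30687500*t^2 + 50702550*t^3 + 30120005*t^4 + 8657000*t^5 + 1438140*t^6 + 183175*t^7 +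
    23445*t^8 + 2745*t^9 + 190*t^10 + 5*t^11

/-- coefficient of `r^3` in the cofactor `x015H1` -/
def x015H1_3 (t : ℚ) : ℚ :=
  15625*t + 3123125*t^2 + 3416050*t^3 + 1304960*t^4 + 203815*t^5 + 10565*t^6 - 520*t^7 - 170*t^8 -
    10*t^9

/-- coefficient of `r^4` in the cofactor `x015H1` -/
def x015H1_4 (t : ℚ) : ℚ :=
  129375*t^2 + 100275*t^3 + 21390*t^4 - 300*t^5 - 405*t^6 - 15*t^7

/-- coefficient of `r^5` in the cofactor `x015H1` -/
def x015H1_5 (t : ℚ) : ℚ :=
  1875*t^2 + 1150*t^3 + 130*t^4 - 30*t^5 - 5*t^6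

/-- coefficient of `r^0` in the cofactor `x015H2` -/
def x015H2_0 (t : ℚ) : ℚ :=
  9765625*t^2 - 615234375*t^4 - 1015625000*t^5 + 15134765625*t^6 + 51140625000*t^7 -
    134496484375*t^8 - 934368750000*t^9 - 708398671875*t^10 + 6043723750000*t^11 +
    18656807428125*t^12 + 11020342125000*t^13 - 56142982321875*t^14 - 176279003325000*t^15 -
    273882747631875*t^16 - 278905537460000*t^17 - 202374700975125*t^18 - 109018464348000*t^19 -
    44724938642325*t^20 - 14216920133400*t^21 - 3542642821749*t^22 - 696924004520*t^23 -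
    108547255845*t^24 - 13365875760*t^25 - 1292930465*t^26 - 97038864*t^27 - 5533185*t^28 -
    231560*t^29 - 6705*t^30 - 120*t^31 - t^32

/-- coefficient of `r^1` in the cofactor `x015H2` -/
def x015H2_1 (t : ℚ) : ℚ :=
  -892333984375*t - 43871230468750*t^2 - 604577796875000*t^3 - 1636322689468750*t^4 -
    1929219663873750*t^5 - 1028688115280200*t^6 + 824483975514699*t^7 + 3268336961004710*t^8 +
    4754654722672670*t^9 + 3980211975281670*t^10 + 1477139275611710*t^11 - 1425315159038602*t^12 -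
    3475030432096490*t^13 - 3877110257499120*t^14 - 2910745137647405*t^15 - 1593704310326430*t^16
    - 660140309385260*t^17 - 211727356495280*t^18 - 53425449841315*t^19 - 10714321940010*t^20 -
    1715892452935*t^21 - 219278488844*t^22 - 22211166030*t^23 - 1759085300*t^24 - 106479195*t^25 -
    4749740*t^26 - 146915*t^27 - 2810*t^28 - 25*t^29

/-- coefficient of `r^2` in the cofactor `x015H2` -/
def x015H2_2 (t : ℚ) : ℚ :=
  152587890625 + 7504882812500*t + 100092880859375*t^2 + 290651344531250*t^3 +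
    2720497050953125*t^4 + 9095025193937500*t^5 + 14297550554973500*t^6 + 12614197813086304*t^7 +
    4672388069602450*t^8 - 6228900396258460*t^9 - 15436118320283840*t^10 - 18060727527822170*t^11
    - 14085969734789051*t^12 - 8008238413052620*t^13 - 3489638610679960*t^14 -
    1205205884999330*t^15 - 335882234783740*t^16 - 75654772436008*t^17 - 13584191250985*t^18 -
    1889911946780*t^19 - 193711940870*t^20 - 13067275280*t^21 - 349760104*t^22 + 31413650*t^23 +
    4263205*t^24 + 236480*t^25 + 6830*t^26 + 84*t^27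

/-- coefficient of `r^3` in the cofactor `x015H2` -/
def x015H2_3 (t : ℚ) : ℚ :=
  549316406250*t - 2235585937500*t^2 - 379325766406250*t^3 - 604703254875000*t^4 -
    2362378463994375*t^5 - 10613621626511650*t^6 - 22522899402805671*t^7 - 27766575984806280*t^8 -
    23264013112321150*t^9 - 14775779610986220*t^10 - 7603908369418755*t^11 - 3220349839060480*t^12
    - 1101310970789370*t^13 - 296787455328960*t^14 - 61952742944390*t^15 - 9849898889820*t^16 -
    1133815666347*t^17 - 71164787990*t^18 + 5870683935*t^19 + 2770729110*t^20 + 516719255*t^21 +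
    64553280*t^22 + 5720175*t^23 + 354670*t^24 + 14625*t^25 + 360*t^26 + 4*t^27

/-- coefficient of `r^4` in the cofactor `x015H2` -/
def x015H2_4 (t : ℚ) : ℚ :=
  -51269531250*t - 5527265625000*t^2 - 151687195312500*t^3 + 107109073593750*t^4 +
    202294376872500*t^5 - 1838804409973425*t^6 - 4713747820061472*t^7 - 5235583649732235*t^8 -
    3482473350942900*t^9 - 1590793647204975*t^10 - 547786120057200*t^11 - 149815425603456*t^12 -
    31837869201990*t^13 - 4550257569630*t^14 - 178323287100*t^15 + 105820672410*t^16 +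
    34050886758*t^17 + 6119052255*t^18 + 779814660*t^19 + 73351800*t^20 + 4969530*t^21 +
    226959*t^22 + 6180*t^23 + 75*t^24

/-- coefficient of `r^5` in the cofactor `x015H2` -/
def x015H2_5 (t : ℚ) : ℚ :=
  -2441406250*t - 639628906250*t^2 - 18315242187500*t^3 + 217703388281250*t^4 +
    566009040243750*t^5 + 416073303270150*t^6 - 38426439473244*t^7 - 220178121633270*t^8 -
    136240292573325*t^9 - 40224530545790*t^10 - 5327492643235*t^11 + 497249103068*t^12 +
    489384794700*t^13 + 169875910710*t^14 + 40348817550*t^15 + 6553383690*t^16 + 663377541*t^17 +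
    30563880*t^18 - 1190915*t^19 - 247570*t^20 - 13120*t^21 - 252*t^22

/-- coefficient of `r^6` in the cofactor `x015H2` -/
def x015H2_6 (t : ℚ) : ℚ :=
  -20302734375*t^2 - 456937500000*t^3 + 62175752203125*t^4 + 145570719382500*t^5 +
    131751428225175*t^6 + 58611348992982*t^7 + 14200143294585*t^8 + 3316144675200*t^9 +
    1621367114130*t^10 + 677898513420*t^11 + 173880258822*t^12 + 29218023540*t^13 +
    3567932745*t^14 + 330762630*t^15 + 13903425*t^16 - 3259392*t^17 - 939525*t^18 - 122520*t^19 -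
    9045*t^20 - 360*t^21 - 6*t^22

/-- coefficient of `r^7` in the cofactor `x015H2` -/
def x015H2_7 (t : ℚ) : ℚ :=
  117187500*t^2 + 76286718750*t^3 + 8747427562500*t^4 + 17741604266250*t^5 + 14427808097100*t^6 +
    6109207390134*t^7 + 1572026328720*t^8 + 347060433375*t^9 + 92945655750*t^10 + 21101106675*t^11
    + 2605491984*t^12 + 40077000*t^13 - 37674180*t^14 - 7284780*t^15 - 920100*t^16 - 80673*t^17 -
    3930*t^18 - 75*t^19

/-- coefficient of `r^8` in the cofactor `x015H2` -/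
def x015H2_8 (t : ℚ) : ℚ :=
  9765625*t^2 + 6767187500*t^3 + 725103359375*t^4 + 1243336431250*t^5 + 839857291700*t^6 +
    279727648268*t^7 + 48469606040*t^8 + 5537190400*t^9 + 951013165*t^10 + 107031260*t^11 -
    25482893*t^12 - 9278030*t^13 - 956810*t^14 + 1100*t^15 + 5750*t^16 + 252*t^17

/-- coefficient of `r^9` in the cofactor `x015H2` -/
def x015H2_9 (t : ℚ) : ℚ :=
  210937500*t^3 + 36972187500*t^4 + 53065489375*t^5 + 28295838150*t^6 + 6240914571*t^7 +
    201641080*t^8 - 119036850*t^9 - 14173860*t^10 - 1361890*t^11 - 407796*t^12 - 54705*t^13 -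
    730*t^14 + 1035*t^15 + 120*t^16 + 4*t^17

/-- coefficient of `r^10` in the cofactor `x015H2` -/
def x015H2_10 (t : ℚ) : ℚ :=
  2343750*t^3 + 1138390625*t^4 + 1373705000*t^5 + 547940425*t^6 + 46137932*t^7 - 19875990*t^8 -
    3856600*t^9 + 42990*t^10 + 25310*t^11 + 629*t^12 + 560*t^13 + 25*t^14

/-- coefficient of `r^11` in the cofactor `x015H2` -/
def x015H2_11 (t : ℚ) : ℚ :=
  19406250*t^4 + 20025000*t^5 + 5617650*t^6 - 547812*t^7 - 428670*t^8 - 18480*t^9 + 9990*t^10 +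
    540*t^11 - 84*t^12

/-- coefficient of `r^12` in the cofactor `x015H2` -/
def x015H2_12 (t : ℚ) : ℚ :=
  140625*t^4 + 127500*t^5 + 23950*t^6 - 8328*t^7 - 2760*t^8 + 140*t^9 + 90*t^10 - t^12

/-- coefficient of `r^0` in the cofactor `x015H3` -/
def x015H3_0 (t : ℚ) : ℚ :=
  62500 + 1596250*t + 5946150*t^2 + 43137640*t^3 + 109391500*t^4 + 127265970*t^5 + 81291800*t^6 +
    31677125*t^7 + 8041185*t^8 + 1376615*t^9 + 159065*t^10 + 11910*t^11 + 520*t^12 + 10*t^13

/-- coefficient of `r^1` in the cofactor `x015H3` -/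
def x015H3_1 (t : ℚ) : ℚ :=
  -15625 - 525625*t - 9783350*t^2 - 13262620*t^3 - 1747305*t^4 + 5515145*t^5 + 3791130*t^6 +
    1129430*t^7 + 182255*t^8 + 16415*t^9 + 775*t^10 + 15*t^11

/-- coefficient of `r^2` in the cofactor `x015H3` -/
def x015H3_2 (t : ℚ) : ℚ :=
  -116250*t - 3103700*t^2 - 4461195*t^3 - 2291075*t^4 - 462835*t^5 - 1215*t^6 + 15125*t^7 +
    2705*t^8 + 195*t^9 + 5*t^10

/-- coefficient of `r^3` in the cofactor `x015H3` -/
def x015H3_3 (t : ℚ) : ℚ :=
  -3750*t - 339200*t^2 - 385440*t^3 - 163860*t^4 - 32860*t^5 - 3570*t^6 - 270*t^7 - 10*t^8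

/-- coefficient of `r^4` in the cofactor `x015H3` -/
def x015H3_4 (t : ℚ) : ℚ :=
  -14850*t^2 - 14085*t^3 - 4575*t^4 - 555*t^5 - 15*t^6

/-- coefficient of `r^5` in the cofactor `x015H3` -/
def x015H3_5 (t : ℚ) : ℚ :=
  -225*t^2 - 195*t^3 - 55*t^4 - 5*t^5

theorem x015_poly1 (t r : ℚ) (h : (t^2+10*t+5)^3 * r = (r+27)*(r+3)^3 * t) :
    t * x015NA t r ^ 2 * x015NB t r + x015NA t r * x015NB t r ^ 2
      + 5 * t * x015D t * x015NA t r * x015NB t r + 9 * t^2 * x015D t ^ 2 * x015NA t r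
      - t * x015D t ^ 2 * x015NB t r = 0 := by
  have key : t * x015NA t r ^ 2 * x015NB t r + x015NA t r * x015NB t r ^ 2
      + 5 * t * x015D t * x015NA t r * x015NB t r + 9 * t^2 * x015D t ^ 2 * x015NA t r
      - t * x015D t ^ 2 * x015NB t r
      = (x015H1_0 t + r * x015H1_1 t + r^2 * x015H1_2 t + r^3 * x015H1_3 t + r^4 * x015H1_4 t + r^5 * x015H1_5 t) * ((t^2+10*t+5)^3 * r - (r+27)*(r+3)^3 * t) := by
    unfold x015NA x015NB x015D x015H1_0 x015H1_1 x015H1_2 x015H1_3 x015H1_4 x015H1_5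
    ring
  rw [key, h, sub_self, mul_zero]

theorem x015_poly2 (t r : ℚ) (h : (t^2+10*t+5)^3 * r = (r+27)*(r+3)^3 * t) :
    r * x015NA t r ^ 2 * x015NB t r ^ 3 - 729 * t^3 * x015D t ^ 5 = 0 := by
  have key : r * x015NA t r ^ 2 * x015NB t r ^ 3 - 729 * t^3 * x015D t ^ 5
      = (x015H2_0 t + r * x015H2_1 t + r^2 * x015H2_2 t + r^3 * x015H2_3 t + r^4 * x015H2_4 t + r^5 * x015H2_5 t + r^6 * x015H2_6 t + r^7 * x015H2_7 t + r^8 * x015H2_8 t + r^9 * x015H2_9 t + r^10 * x015H2_10 t + r^11 * x015H2_11 t + r^12 * x015H2_12 t) * ((t^2+10*t+5)^3 * r - (r+27)*(r+3)^3 * t) := by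
    unfold x015NA x015NB x015D x015H2_0 x015H2_1 x015H2_2 x015H2_3 x015H2_4 x015H2_5 x015H2_6 x015H2_7 x015H2_8 x015H2_9 x015H2_10 x015H2_11 x015H2_12
    ring
  rw [key, h, sub_self, mul_zero]

theorem x015_poly3 (t r : ℚ) (h : (t^2+10*t+5)^3 * r = (r+27)*(r+3)^3 * t) :
    (x015D t ^ 2 - 4 * x015NA t r * x015D t - x015NA t r ^ 2) * x015NB t r
      - t * (x015NA t r ^ 3 + 9 * x015NA t r ^ 2 * x015D t + 9 * x015NA t r * x015D t ^ 2)
      - 125 * x015D t ^ 3 = 0 := by
  have key : (x015D t ^ 2 - 4 * x015NA t r * x015D t - x015NA t r ^ 2) * x015NB t r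
      - t * (x015NA t r ^ 3 + 9 * x015NA t r ^ 2 * x015D t + 9 * x015NA t r * x015D t ^ 2)
      - 125 * x015D t ^ 3
      = (x015H3_0 t + r * x015H3_1 t + r^2 * x015H3_2 t + r^3 * x015H3_3 t + r^4 * x015H3_4 t + r^5 * x015H3_5 t) * ((t^2+10*t+5)^3 * r - (r+27)*(r+3)^3 * t) := by
    unfold x015NA x015NB x015D x015H3_0 x015H3_1 x015H3_2 x015H3_3 x015H3_4 x015H3_5
    ring
  rw [key, h, sub_self, mul_zero]

end Fermat.Agent.S51
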