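import Mathlib
import Fermat.Agent.S51.X015Poly

set_option autoImplicit false

/-!
Rational points of the plane model `J5(t) = J3(r)` of `X0(15)`:
given the rational points of `Y^2 = X (X+9) (X-16)` as a hypothesis, the only rational
solutions with `t r ≠ 0` are the four non-cuspidal points.
-/

namespace Fermat.Agent.S51

/-- The sextic denominator has no rational root. -/
theorem x015D_ne_zero (t : ℚ) : x015D t ≠ 0 := by
  intro h
  unfold x015D at h
  -- `t` is a root of a monic integer polynomial, hence an integer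
  have hmonic : (Polynomial.X ^ 6 + 24 * Polynomial.X ^ 5 + 189 * Polynomial.X ^ 4
      + 520 * Polynomial.X ^ 3 + 315 * Polynomial.X ^ 2 - 25 : Polynomial ℤ).Monic := by
    monicity!
  have hroot : Polynomial.aeval t (Polynomial.X ^ 6 + 24 * Polynomial.X ^ 5
      + 189 * Polynomial.X ^ 4 + 520 * Polynomial.X ^ 3 + 315 * Polynomial.X ^ 2 - 25 :
      Polynomial ℤ) = 0 := by
    simp only [map_sub, map_add, map_mul, map_pow, Polynomial.aeval_X, map_ofNat]
    linear_combination -h
  obtain ⟨n, hn⟩ := isInteger_of_is_root_of_monic hmonic hroot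
  have hn' : t = (n : ℚ) := by simpa using hn.symm
  subst hn'
  have hz : (n : ℤ) ^ 6 + 24 * n ^ 5 + 189 * n ^ 4 + 520 * n ^ 3 + 315 * n ^ 2 - 25 = 0 := by
    have : ((n ^ 6 + 24 * n ^ 5 + 189 * n ^ 4 + 520 * n ^ 3 + 315 * n ^ 2 - 25 : ℤ) : ℚ) = 0 := by
      push_cast
      linear_combination -h
    exact_mod_cast this
  have hdvd : n ^ 2 ∣ 25 := ⟨n ^ 4 + 24 * n ^ 3 + 189 * n ^ 2 + 520 * n + 315, by linear_combination -hz⟩
  have hle : n ^ 2 ≤ 25 := Int.le_of_dvd (by norm_num) hdvd
  have hb1 : n ≤ 5 := by nlinarith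
  have hb2 : -5 ≤ n := by nlinarith
  interval_cases n <;> omega

/-- The coordinates `A`, `B` on `X0(15)` as rational functions of `(t, r)`. -/
theorem x015_AB (t r : ℚ) (ht : t ≠ 0)
    (h : (t^2+10*t+5)^3 * r = (r+27)*(r+3)^3 * t) :
    ∃ A B : ℚ, A^2*B + A*(B^2+5*B+9) - B = 0 ∧ r * A^2 * B^3 = 729 ∧
      t * ((1-4*A-A^2)*B - A^3 - 9*A^2 - 9*A) = 125 := by
  have hD := x015D_ne_zero t
  have h1 := x015_poly1 t r h
  have h2 := x015_poly2 t r h
  have h3 := x015_poly3 t r h
  set NA := x015NA t r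
  set NB := x015NB t r
  set D := x015D t
  refine ⟨NA / D, NB / (t * D), ?_, ?_, ?_⟩
  · have : (NA / D)^2 * (NB / (t * D)) + NA / D * ((NB / (t * D))^2 + 5 * (NB / (t * D)) + 9)
        - NB / (t * D)
        = (t * NA ^ 2 * NB + NA * NB ^ 2 + 5 * t * D * NA * NB + 9 * t^2 * D ^ 2 * NA
            - t * D ^ 2 * NB) / (t^2 * D^3) := by
      field_simp
      ring
    rw [this, h1, zero_div]
  · have : r * (NA / D)^2 * (NB / (t * D))^3
        = (r * NA ^ 2 * NB ^ 3 - 729 * t^3 * D ^ 5) / (t^3 * D^5) + 729 := by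
      field_simp
      ring
    rw [this, h2, zero_div, zero_add]
  · have : t * ((1 - 4 * (NA / D) - (NA / D)^2) * (NB / (t * D)) - (NA / D)^3 - 9 * (NA / D)^2
          - 9 * (NA / D))
        = ((D ^ 2 - 4 * NA * D - NA ^ 2) * NB
            - t * (NA ^ 3 + 9 * NA ^ 2 * D + 9 * NA * D ^ 2) - 125 * D ^ 3) / D^3 + 125 := by
      field_simp
      ring
    rw [this, h3, zero_div, zero_add]

/-- Enumeration of the rational points in the coordinates `A`, `B`. -/
theorem x015_points_of_AB
    (hC : ∀ X Y : ℚ, Y ^ 2 = X * (X + 9) * (X - 16) →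
      X = 0 ∨ X = -9 ∨ X = 16 ∨ X = 36 ∨ X = -4)
    (t r A B : ℚ)
    (h1 : A^2*B + A*(B^2+5*B+9) - B = 0) (h2 : r * A^2 * B^3 = 729)
    (h3 : t * ((1-4*A-A^2)*B - A^3 - 9*A^2 - 9*A) = 125) :
    (t = -10 ∧ r = -2) ∨ (t = -40 ∧ r = -729/2) ∨ (t = -25/2 ∧ r = -32) ∨
      (t = -25/8 ∧ r = -729/32) := by
  have hA : A ≠ 0 := by
    rintro rfl
    norm_num at h2
  have hY : ((8*B - 20*A*B - 72*A)/A^2)^2 = (4*B/A) * (4*B/A + 9) * (4*B/A - 16) := by
    field_simp
    linear_combination (576*A - 64*B) * h1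
  rcases hC _ _ hY with hX | hX | hX | hX | hX
  · -- X = 0
    exfalso
    have hB : B = 0 := by
      field_simp at hX
      linarith
    subst hB
    apply hA
    linarith
  · -- X = -9
    have hB : B = -9*A/4 := by
      field_simp at hX
      linarith
    subst hB
    have hA2 : A * (A - 2)^2 = 0 := by linear_combination (16/45) * h1
    have hA' : A = 2 := by
      rcases mul_eq_zero.mp hA2 with h | h
      · exact absurd h hA
      · have := pow_eq_zero_iff (two_ne_zero) |>.mp h
        linarith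
    subst hA'
    left
    constructor <;> [linarith; linarith]
  · -- X = 16
    have hB : B = 4*A := by
      field_simp at hX
      linarith
    subst hB
    have hA2 : A * (2*A + 1)^2 = 0 := by linear_combination (1/5) * h1
    have hA' : A = -1/2 := by
      rcases mul_eq_zero.mp hA2 with h | h
      · exact absurd h hA
      · have := pow_eq_zero_iff (two_ne_zero) |>.mp h
        linarith
    subst hA'
    right; left
    constructor <;> [linarith; linarith]
  · -- X = 36
    have hB : B = 9*A := by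
      field_simp at hX
      linarith
    subst hB
    have hA2 : A^2 * (2*A + 1) = 0 := by linear_combination (1/45) * h1
    have hA' : A = -1/2 := by
      rcases mul_eq_zero.mp hA2 with h | h
      · exact absurd (pow_eq_zero_iff (two_ne_zero) |>.mp h) hA
      · linarith
    subst hA'
    right; right; left
    constructor <;> [linarith; linarith]
  · -- X = -4
    have hB : B = -A := by
      field_simp at hX
      linarith
    subst hB
    have hA2 : A * (A - 2) = 0 := by linear_combination (-1/5) * h1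
    have hA' : A = 2 := by
      rcases mul_eq_zero.mp hA2 with h | h
      · exact absurd h hA
      · linarith
    subst hA'
    right; right; right
    constructor <;> [linarith; linarith]

/-- All rational points `(t, r)` with `t r ≠ 0` of the plane model `J5(t) = J3(r)` of `X0(15)`,
given the rational points of `Y^2 = X (X+9) (X-16)`. -/
theorem x015_points
    (hC : ∀ X Y : ℚ, Y ^ 2 = X * (X + 9) * (X - 16) →
      X = 0 ∨ X = -9 ∨ X = 16 ∨ X = 36 ∨ X = -4)
    (t r : ℚ) (ht : t ≠ 0) (h : (t^2+10*t+5)^3 * r = (r+27)*(r+3)^3 * t) :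
    (t = -10 ∧ r = -2) ∨ (t = -40 ∧ r = -729/2) ∨ (t = -25/2 ∧ r = -32) ∨
      (t = -25/8 ∧ r = -729/32) := by
  obtain ⟨A, B, h1, h2, h3⟩ := x015_AB t r ht h
  exact x015_points_of_AB hC t r A B h1 h2 h3

/-- The `j`-invariants of curves with a rational 3-isogeny and a rational 5-isogeny:
if `c4^3 t = Δ (t^2+10t+5)^3` and `c4^3 r = Δ (r+27)(r+3)^3` with `Δ ≠ 0`, then
`j = c4^3/Δ` is one of the four non-cuspidal values. -/
theorem j_of_three_five
    (hC : ∀ X Y : ℚ, Y ^ 2 = X * (X + 9) * (X - 16) →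
      X = 0 ∨ X = -9 ∨ X = 16 ∨ X = 36 ∨ X = -4)
    (c4 Δ t r : ℚ) (hΔ : Δ ≠ 0)
    (h5 : c4^3 * t = Δ * (t^2+10*t+5)^3) (h3 : c4^3 * r = Δ * ((r+27)*(r+3)^3)) :
    c4^3 = (-25/2) * Δ ∨ c4^3 = (-349938025/8) * Δ ∨ c4^3 = (-121945/32) * Δ ∨
      c4^3 = (46969655/32768) * Δ := by
  have ht : t ≠ 0 := by
    rintro rfl
    apply hΔ
    linarith
  have hG : (t^2+10*t+5)^3 * r = (r+27)*(r+3)^3 * t := by
    apply mul_left_cancel₀ hΔ
    linear_combination t * h3 - r * h5
  rcases x015_points hC t r ht hG with ⟨rfl, -⟩ | ⟨rfl, -⟩ | ⟨rfl, -⟩ | ⟨rfl, -⟩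
  · left; linarith
  · right; left; linarith
  · right; right; left; linarith
  · right; right; right; linarith

end Fermat.Agent.S51
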